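import Fermat.Agent.S56.Defs
import Fermat.Agent.CFT.T.Main
import Fermat.Agent.CFT.F.Chase2
import Fermat.Agent.CFT.W.LESAux

/-!
# S56 / FIN-Z1 : `Z¹(G_T, ρ)` is finite (`W` finite, `p ∈ T`).

Restrict scalars to `ZMod p` (same carrier) and use `CFT.finite_H1` (ctx from `(CFT.ptHyp hp2 T hpT).exists_ctx`) and
`CFT.LES.finite_Z1`.
-/

set_option autoImplicit false

open ExtCitation Module

namespace Fermat.Agent.S56.FinZ1

open CFT (levS levAll decomp Z1 B1 Qb d12 IsSmooth)

/-- the case `k = ZMod p` -/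
theorem finite_Z1_zmod {p : ℕ} [Fact p.Prime] (hp2 : p ≠ 2) (T : Finset Nat.Primes)
    (hpT : pPrime p ∈ T) {W : Type} [AddCommGroup W] [Module (ZMod p) W]
    [FiniteDimensional (ZMod p) W] (ρ : Representation (ZMod p) GQ W)
    (hρ : IsSmooth (levS T) ρ) : Finite ↥(Z1 (levS T) ρ) := by
  obtain ⟨lam, Φ, ctx⟩ := (CFT.ptHyp hp2 T hpT).exists_ctx
  have h1 : Module.Finite (ZMod p) (CFT.H1 (levS T) ρ) := CFT.finite_H1 ctx hρ
  have h2 : Module.Finite (ZMod p) ↥(Z1 (levS T) ρ) := CFT.LES.finite_Z1 (levS T) hρ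
  exact Module.finite_of_finite (ZMod p)

/-- restriction of scalars to `ZMod p` -/
noncomputable def zmodRep (p : ℕ) {k : Type} [CommRing k] {W : Type} [AddCommGroup W] [Module k W]
    [Module (ZMod p) W] (ρ : Representation k GQ W) : Representation (ZMod p) GQ W where
  toFun g := ((ρ g).toAddMonoidHom.toZModLinearMap p : Module.End (ZMod p) W)
  map_one' := by
    apply LinearMap.ext
    intro w
    show ρ 1 w = w
    rw [map_one]; rfl
  map_mul' g h := by
    apply LinearMap.ext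
    intro w
    show ρ (g * h) w = ρ g (ρ h w)
    rw [map_mul]; rfl

theorem finite_Z1_of_zmodModule {p : ℕ} [Fact p.Prime] (hp2 : p ≠ 2) (T : Finset Nat.Primes)
    (hpT : pPrime p ∈ T) {k : Type} [CommRing k] {W : Type} [AddCommGroup W] [Module k W]
    [Module (ZMod p) W] [Finite W] (ρ : Representation k GQ W)
    (hρ : IsSmooth (levS T) ρ) : Finite ↥(Z1 (levS T) ρ) := by
  have : FiniteDimensional (ZMod p) W := Module.Finite.of_finite
  have hρ' : IsSmooth (levS T) (zmodRep p ρ) := fun w => hρ w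
  have := finite_Z1_zmod hp2 T hpT (zmodRep p ρ) hρ'
  refine Finite.of_injective
    (fun c : ↥(Z1 (levS T) ρ) => (⟨c.1, ?_, c.2.2⟩ : ↥(Z1 (levS T) (zmodRep p ρ)))) ?_
  · have h := LinearMap.mem_ker.1 c.2.1
    rw [SetLike.mem_coe, LinearMap.mem_ker]
    funext g
    exact congrFun h g
  · intro c c' h
    exact Subtype.ext (congrArg (fun x : ↥(Z1 (levS T) (zmodRep p ρ)) => x.1) h)

theorem finite_Z1_levS {k : Type} [Field k] [Finite k] {p : ℕ} [Fact p.Prime] [CharP k p]
    (hp2 : p ≠ 2) (T : Finset Nat.Primes) (hpT : pPrime p ∈ T) {W : Type}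
    [AddCommGroup W] [Module k W] [FiniteDimensional k W] (ρ : Representation k GQ W)
    (hρ : IsSmooth (levS T) ρ) : Finite ↥(Z1 (levS T) ρ) := by
  have hfin : Finite W := Module.finite_of_finite k
  exact @finite_Z1_of_zmodModule p _ hp2 T hpT k _ W _ _
    (AddCommGroup.zmodModule (n := p) (fun w => by
      rw [← Nat.cast_smul_eq_nsmul k, CharP.cast_eq_zero, zero_smul])) hfin ρ hρ

end Fermat.Agent.S56.FinZ1
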