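import Fermat.Agent.S56.TW.Hyp
import Fermat.Agent.S56.Loc.Ur

/-!
# S56 / TW-LOW : a cocycle of level `S₀ ∪ Q` which is locally trivial at all `q ∈ Q` has level `S₀`.

`f : GQ →* Function.End W`, `f g = (w ↦ g • w + b g)` is a monoid homomorphism, `f g = 1 ↔ (g acts trivially and b g = 0)`.
It is continuous and unramified outside `S₀`; `exists_level_of_unram`.
-/

set_option autoImplicit false

open ExtCitation

namespace Fermat.Agent.S56.Low

open CFT (levS levAll decomp Z1 B1 Qb d12 IsSmooth)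

section Affine

variable {k : Type} [CommRing k] {G : Type} [Group G] {W : Type} [AddCommGroup W] [Module k W]

theorem coc_mul {ρ : Representation k G W} {b : G → W} (hb : d12 ρ b = 0) (g h : G) :
    b (g * h) = ρ g (b h) + b g := by
  have := congrFun hb (g, h)
  simp only [CFT.d12_apply, Pi.zero_apply] at this
  rw [sub_add_eq_add_sub, sub_eq_zero] at this
  exact this.symm

theorem coc_one {ρ : Representation k G W} {b : G → W} (hb : d12 ρ b = 0) : b 1 = 0 := by
  have := coc_mul hb 1 1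
  rw [mul_one, map_one, Module.End.one_apply] at this
  exact left_eq_add.1 this |>.symm ▸ rfl

/-- the affine action attached to a cocycle -/
def affHom (ρ : Representation k G W) (b : G → W) (hb : d12 ρ b = 0) : G →* Function.End W where
  toFun g := fun w => ρ g w + b g
  map_one' := by
    funext w
    show ρ 1 w + b 1 = w
    rw [coc_one hb, map_one, Module.End.one_apply, add_zero]
  map_mul' g h := by
    funext w
    show ρ (g * h) w + b (g * h) = ρ g (ρ h w + b h) + b g
    rw [coc_mul hb, map_mul, Module.End.mul_apply, map_add, add_assoc]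

theorem affHom_eq_one_iff {ρ : Representation k G W} {b : G → W} (hb : d12 ρ b = 0) (g : G) :
    affHom ρ b hb g = 1 ↔ ρ g = 1 ∧ b g = 0 := by
  constructor
  · intro h
    have h' : ∀ w, ρ g w + b g = w := fun w => congrFun h w
    have h0 : b g = 0 := by
      have := h' 0
      rwa [map_zero, zero_add] at this
    refine ⟨LinearMap.ext fun w => ?_, h0⟩
    have := h' w
    rwa [h0, add_zero] at this
  · rintro ⟨h1, h2⟩
    funext w
    show ρ g w + b g = w
    rw [h1, h2, Module.End.one_apply, add_zero]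

end Affine

variable {k : Type} [Field k] {p : ℕ} [Fact p.Prime] [CharP k p] {rbar : GQ →* M2 k}

theorem adTw_eq_one {σ : GQ} (h1 : rbar σ = 1) (h2 : cycloChar p σ = 1) : adTw p rbar σ = 1 := by
  have h3 : rbar σ⁻¹ = 1 := by
    have := map_mul rbar σ⁻¹ σ
    rwa [inv_mul_cancel, map_one, h1, mul_one, eq_comm] at this
  ext m : 2
  simp [adTw, Representation.twist_apply_apply, chiK, h1, h2, h3]

theorem mem_Z1_levS_of_locally_trivial (hcont : GaloisFactorsThroughFiniteLevel rbar)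
    (S₀ Q : Finset Nat.Primes) (hpS : pPrime p ∈ S₀) (hur : UnramOutside rbar S₀)
    (b : GQ → sl2 k) (hb : b ∈ Z1 (levS (S₀ ∪ Q)) (adTw p rbar))
    (hloc : ∀ q ∈ Q, resLoc k q b ∈ B1loc (adTw p rbar) q) : b ∈ Z1 (levS S₀) (adTw p rbar) := by
  classical
  have hcoc : d12 (adTw p rbar) b = 0 := LinearMap.mem_ker.1 hb.1
  obtain ⟨_, ⟨F, hF, hFn, rfl⟩, hU⟩ := hb.2
  have hbF : ∀ s ∈ F.fixingSubgroup, b s = 0 := by
    intro s hs
    have := hU 1 s hs
    rwa [one_mul, coc_one hcoc] at this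
  obtain ⟨_, ⟨F₂, hF₂, hF₂n, rfl⟩, hχ⟩ := CFT.cycloChar_smooth (p := p) S₀ hpS
  obtain ⟨L₁, hL₁, hL₁r⟩ := hcont
  set f := affHom (adTw p rbar) b hcoc with hf
  -- continuity
  have hfc : GaloisFactorsThroughFiniteLevel f := by
    have := hF.1
    have := hF₂.1
    refine ⟨L₁ ⊔ F₂ ⊔ F, inferInstance, fun σ hσ => ?_⟩
    rw [hf, affHom_eq_one_iff]
    refine ⟨adTw_eq_one (hL₁r σ fun x hx => hσ x ?_) (hχ σ ?_), hbF σ ?_⟩
    · exact (le_sup_left.trans le_sup_left : L₁ ≤ L₁ ⊔ F₂ ⊔ F) hx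
    · rw [IntermediateField.mem_fixingSubgroup_iff]
      exact fun x hx => hσ x ((le_sup_right.trans le_sup_left : F₂ ≤ L₁ ⊔ F₂ ⊔ F) hx)
    · rw [IntermediateField.mem_fixingSubgroup_iff]
      exact fun x hx => hσ x ((le_sup_right : F ≤ L₁ ⊔ F₂ ⊔ F) hx)
  -- the action is unramified outside `S₀`
  have hact : ∀ q : Nat.Primes, q ∉ S₀ → ∀ A : ValuationSubring Qb, A.LiesOverPrime (q : ℕ) →
      ∀ σ ∈ A.inertiaSubgroupIn ℚ, adTw p rbar σ = 1 := fun q hq A hA σ hσ =>
    adTw_eq_one (hur q hq A hA σ hσ) (hχ σ (hF₂.2 q hq A hA hσ))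
  have hfu : ∀ q : Nat.Primes, q ∉ S₀ → ∀ A : ValuationSubring Qb, A.LiesOverPrime (q : ℕ) →
      ∀ σ ∈ A.inertiaSubgroupIn ℚ, f σ = 1 := by
    intro q hq A hA σ hσ
    rw [hf, affHom_eq_one_iff]
    refine ⟨hact q hq A hA σ hσ, ?_⟩
    by_cases hqQ : q ∈ Q
    · obtain ⟨w, hw⟩ := hloc q hqQ
      have hA₀ := liesOverPrime_primeLocalPlace q
      obtain ⟨g, rfl⟩ := Bridge.exists_smul_eq q.2 hA₀ hA
      have hτ := (Bridge.mem_inertia_smul_iff q.2 hA₀).1 hσ
      set τ := g⁻¹ * σ * g with hτdef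
      have hbτ : b τ = 0 := by
        have h1 := congrFun hw ⟨τ, inert_le_decomp q hτ⟩
        have h2 : b τ = adTw p rbar τ w - w := h1.symm
        rw [h2, hact q hq _ hA₀ τ hτ, Module.End.one_apply, sub_self]
      -- `g τ = σ g`
      have e : g * τ = σ * g := by rw [hτdef]; group
      have e1 := coc_mul hcoc g τ
      have e2 := coc_mul hcoc σ g
      rw [e, e2, hbτ, map_zero, zero_add, hact q hq _ hA σ hσ, Module.End.one_apply] at e1
      exact left_eq_add.1 e1.symm |>.symm ▸ rfl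
    · exact hbF σ (hF.2 q (by simp [hq, hqQ]) A hA hσ)
  obtain ⟨U, hUS, hU1⟩ := exists_level_of_unram f hfc S₀ hfu
  refine ⟨hb.1, U, hUS, fun g s hs => ?_⟩
  have := (affHom_eq_one_iff hcoc s).1 (hU1 s hs)
  rw [coc_mul hcoc, this.2, map_zero, zero_add]

end Fermat.Agent.S56.Low
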