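import Mathlib

/-!
# S56 / TW-SEL : the linear algebra behind the choice of the Taylor-Wiles primes

NB. the hypothesis `hBK : ∀ q, B ≤ K q` is necessary (counterexample without it: `E = Z = 𝔽₂²`,
`B = ⟨e₁⟩`, `K q` alternating between `⟨e₂⟩` and `⟨e₁ + e₂⟩`).
-/

set_option autoImplicit false
set_option linter.style.haveILetI false

open Module

namespace Fermat.Agent.S56

theorem exists_kill_family_aux {k E : Type} [Field k] [AddCommGroup E] [Module k E]
    (Z B : Submodule k E) [FiniteDimensional k Z] (K : Nat.Primes → Submodule k E)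
    (Good : Nat.Primes → Prop) (hBK : ∀ q, B ≤ K q)
    (hex : ∀ ψ ∈ Z, ψ ∉ B → ∀ T : Finset Nat.Primes, ∃ q ∉ T, Good q ∧ ψ ∉ K q)
    (ψ₀ : E) (hψ₀ : ψ₀ ∈ Z) (hψ₀B : ψ₀ ∉ B) :
    ∀ (j : ℕ) (Z' : Submodule k E), B ≤ Z' → Z' ≤ Z → finrank k Z' ≤ finrank k B + j →
      ∀ T : Finset Nat.Primes, ∃ qv : Fin j → Nat.Primes, Function.Injective qv ∧
        (∀ i, qv i ∉ T ∧ Good (qv i)) ∧ ∀ ψ ∈ Z', (∀ i, ψ ∈ K (qv i)) → ψ ∈ B := by
  intro j
  induction j with
  | zero =>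
    intro Z' hB hZ hfr T
    haveI : FiniteDimensional k Z' := Submodule.finiteDimensional_of_le hZ
    have : B = Z' := Submodule.eq_of_le_of_finrank_le hB (by simpa using hfr)
    exact ⟨Fin.elim0, fun i => i.elim0, fun i => i.elim0, fun ψ hψ _ => this ▸ hψ⟩
  | succ j ih =>
    intro Z' hB hZ hfr T
    haveI : FiniteDimensional k Z' := Submodule.finiteDimensional_of_le hZ
    obtain ⟨ψ, hψZ, hψB, hψZ'⟩ : ∃ ψ ∈ Z, ψ ∉ B ∧ (B ≠ Z' → ψ ∈ Z') := by
      by_cases h : B = Z'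
      · exact ⟨ψ₀, hψ₀, hψ₀B, fun h' => absurd h h'⟩
      · obtain ⟨ψ, h1, h2⟩ := SetLike.exists_of_lt (lt_of_le_of_ne hB h)
        exact ⟨ψ, hZ h1, h2, fun _ => h1⟩
    obtain ⟨q, hqT, hqG, hqK⟩ := hex ψ hψZ hψB T
    have hfr' : finrank k ↥(Z' ⊓ K q) ≤ finrank k B + j := by
      by_cases h : B = Z'
      · rw [← h, inf_eq_left.2 (hBK q)]
        exact Nat.le_add_right _ _
      · have hlt : Z' ⊓ K q < Z' := by
          refine lt_of_le_of_ne inf_le_left fun h' => hqK ?_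
          have : ψ ∈ Z' ⊓ K q := by rw [h']; exact hψZ' h
          exact this.2
        have := Submodule.finrank_lt_finrank_of_lt hlt
        omega
    obtain ⟨qv, hinj, hgood, hkill⟩ := ih (Z' ⊓ K q) (le_inf hB (hBK q)) (inf_le_left.trans hZ) hfr'
      (insert q T)
    refine ⟨Fin.cons q qv, ?_, ?_, ?_⟩
    · rw [Fin.cons_injective_iff]
      refine ⟨?_, hinj⟩
      rintro ⟨i, hi⟩
      exact (hgood i).1 (by rw [hi]; exact Finset.mem_insert_self _ _)
    · intro i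
      refine Fin.cases ?_ (fun i => ?_) i
      · exact ⟨hqT, hqG⟩
      · rw [Fin.cons_succ]
        exact ⟨fun h => (hgood i).1 (Finset.mem_insert_of_mem h), (hgood i).2⟩
    · intro φ hφ hall
      refine hkill φ ⟨hφ, by simpa using hall 0⟩ fun i => ?_
      simpa using hall i.succ

/-- **[TW-SEL]** -/
theorem exists_kill_family {k E : Type} [Field k] [AddCommGroup E] [Module k E] (Z B : Submodule k E)
    (hBZ : B ≤ Z) [FiniteDimensional k Z] (K : Nat.Primes → Submodule k E) (Good : Nat.Primes → Prop)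
    (hBK : ∀ q, B ≤ K q)
    (hex : ∀ ψ ∈ Z, ψ ∉ B → ∀ T : Finset Nat.Primes, ∃ q ∉ T, Good q ∧ ψ ∉ K q)
    (T₀ : Finset Nat.Primes) :
    ∃ qv : Fin (finrank k Z - finrank k B) → Nat.Primes, Function.Injective qv ∧
      (∀ i, qv i ∉ T₀ ∧ Good (qv i)) ∧ ∀ ψ ∈ Z, (∀ i, ψ ∈ K (qv i)) → ψ ∈ B := by
  by_cases h : B = Z
  · have hr : finrank k Z - finrank k B = 0 := by rw [h, Nat.sub_self]
    haveI : IsEmpty (Fin (finrank k Z - finrank k B)) := by rw [hr]; infer_instance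
    exact ⟨isEmptyElim, fun i => isEmptyElim i, fun i => isEmptyElim i, fun ψ hψ _ => h ▸ hψ⟩
  · obtain ⟨ψ₀, h1, h2⟩ := SetLike.exists_of_lt (lt_of_le_of_ne hBZ h)
    exact exists_kill_family_aux Z B K Good hBK hex ψ₀ h1 h2 _ Z hBZ le_rfl (by omega) T₀

end Fermat.Agent.S56
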