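import Fermat.Agent.S56.TW.Key
import Fermat.Agent.S56.TW.SelLA
import Fermat.Agent.S56.TW.Low
import Fermat.Agent.S56.TW.FinZ1

/-!
# S56 / TW-SEL, TW-LOW, FIN-Z1, TW-MAIN : the choice of the Taylor-Wiles primes.

[TW-SEL] (pure linear algebra + induction).  `B ≤ Z` finite dimensional, `r = dim Z - dim B`; for every `ψ ∈ Z \ B` and every finite `T` there is a good `q ∉ T` with `ψ ∉ K q`.
  Then there are exactly `r` distinct good primes `∉ T₀` with `Z ∩ ⋂ K (q_i) ≤ B`.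
  Induction: for `B ≤ Z' ≤ Z` with `dim Z' - dim B ≤ j` find `j` primes.  If `Z' ≠ B` pick `ψ ∈ Z' \ B`, `q` good, `∉ T`, `ψ ∉ K q`: `Z' ⊓ K q ⊔ B` is strictly smaller.  If `Z' = B` and `j > 0` then `r > 0`: PAD with good primes obtained from a fixed `ψ₀ ∈ Z \ B`.
[TW-LOW] `b ∈ Z¹(G_{S₀ ∪ Q}, W')` locally trivial at all `q ∈ Q` ⟹ `b ∈ Z¹(G_{S₀}, W')`.
  `f : GQ →* Function.End (sl2 k)`, `f g = (w ↦ g • w + b g)` is a monoid homomorphism, `f g = 1 ↔ (g acts trivially and b g = 0)`.  It is continuous.  It is unramified outside `S₀`: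
  `q ∉ S₀ ∪ Q`: inertia lies in the level of `b` and of `W'`.  `q ∈ Q \ S₀`: `b σ = (σ - 1) w = 0` for `σ ∈ inert q` (`W'` unramified at `q ≠ p`); another place is `g • A`, its inertia is `g I g⁻¹`, `b (g σ g⁻¹) = g b σ - (g σ g⁻¹ - 1) b g = 0`.
  `exists_level_of_unram` gives `U ∈ levS S₀` with `f = 1` on `U`: `b (g s) = b g + g b s = b g`.
[FIN-Z1] `Z¹(G_T, ρ)` is finite (`W` finite, `p ∈ T`): restrict scalars to `ZMod p` (same carrier) and use `CFT.finite_H1` (`CFT/F/Chase2.lean`, ctx from `(CFT.ptHyp hp2 T hpT).exists_ctx`) + `CFT/W/LESAux.lean finite_Z1`.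
-/

set_option autoImplicit false

open ExtCitation Polynomial Module

namespace Fermat.Agent.S56

open CFT (levS levAll decomp Z1 B1 Qb d12 IsSmooth)

variable {k : Type} [Field k] [Finite k] {p : ℕ} [Fact p.Prime] [CharP k p] {rbar : GQ →* M2 k}

/-- **[FIN-Z1]** -/
theorem finite_Z1_levS (hp2 : p ≠ 2) (T : Finset Nat.Primes) (hpT : pPrime p ∈ T) {W : Type}
    [AddCommGroup W] [Module k W] [FiniteDimensional k W] (ρ : Representation k GQ W)
    (hρ : IsSmooth (levS T) ρ) : Finite ↥(Z1 (levS T) ρ) :=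
  FinZ1.finite_Z1_levS hp2 T hpT ρ hρ

/-- **[TW-LOW]** -/
theorem mem_Z1_levS_of_locally_trivial (hcont : GaloisFactorsThroughFiniteLevel rbar)
    (S₀ Q : Finset Nat.Primes) (hpS : pPrime p ∈ S₀) (hur : UnramOutside rbar S₀)
    (b : GQ → sl2 k) (hb : b ∈ Z1 (levS (S₀ ∪ Q)) (adTw p rbar))
    (hloc : ∀ q ∈ Q, resLoc k q b ∈ B1loc (adTw p rbar) q) : b ∈ Z1 (levS S₀) (adTw p rbar) :=
  Low.mem_Z1_levS_of_locally_trivial hcont S₀ Q hpS hur b hb hloc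

omit [Finite k] in
theorem B1_le_comap_B1loc (q : Nat.Primes) :
    B1 (adTw p rbar) ≤ (B1loc (adTw p rbar) q).comap (resLoc k q) := by
  intro b hb
  exact resLoc_mem_B1loc (adTw p rbar) hb q

set_option maxHeartbeats 1000000 in
-- each elaboration of `Z1 _ (adTw p rbar)` costs about one second
/-- **[TW-MAIN]** -/
theorem exists_tw_primes (hp2 : p ≠ 2) (h : RbarHyp p rbar) (S₀ : Finset Nat.Primes)
    (hpS : pPrime p ∈ S₀) (hur : UnramOutside rbar S₀) :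
    ∃ r : ℕ, ∀ (n : ℕ) (T : Finset ℕ), ∃ qv : Fin r → Nat.Primes, Function.Injective qv ∧
      (∀ i, ((qv i : Nat.Primes) : ℕ) ∉ T ∧ p ^ (n + 1) ∣ ((qv i : Nat.Primes) : ℕ) - 1 ∧
        ∃ φ : GQ, (primeLocalPlace (qv i)).IsFrobeniusAt φ ((qv i : Nat.Primes) : ℕ) ∧
          ∃ α β : k, α ≠ β ∧ (rbar φ).charpoly = (X - C α) * (X - C β)) ∧
      ∀ b ∈ Z1 (levS (S₀ ∪ Finset.univ.image qv)) (adTw p rbar),
        (∀ q ∈ Finset.univ.image qv, resLoc k q b ∈ B1loc (adTw p rbar) q) →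
          b ∈ B1 (adTw p rbar) := by
  have hsm : IsSmooth (levS S₀) (adTw p rbar) := adTw_smooth h.cont S₀ hpS hur
  haveI : Finite ↥(Z1 (levS S₀) (adTw p rbar)) := finite_Z1_levS hp2 S₀ hpS _ hsm
  haveI : FiniteDimensional k ↥(Z1 (levS S₀) (adTw p rbar)) := Module.Finite.of_finite
  refine ⟨finrank k ↥(Z1 (levS S₀) (adTw p rbar)) - finrank k ↥(B1 (adTw p rbar)), fun n T => ?_⟩
  have hex : ∀ ψ ∈ Z1 (levS S₀) (adTw p rbar), ψ ∉ B1 (adTw p rbar) →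
      ∀ T' : Finset Nat.Primes, ∃ q ∉ T', ((q : ℕ) ∉ T ∧ p ^ (n + 1) ∣ (q : ℕ) - 1 ∧
        ∃ φ : GQ, (primeLocalPlace q).IsFrobeniusAt φ (q : ℕ) ∧
          ∃ α β : k, α ≠ β ∧ (rbar φ).charpoly = (X - C α) * (X - C β)) ∧
        ψ ∉ (B1loc (adTw p rbar) q).comap (resLoc k q) := by
    intro ψ hψ hψB T'
    obtain ⟨q, hq1, hq2, hq3, hq4⟩ := exists_tw_prime hp2 h S₀ n ψ hψ hψB
      (T ∪ T'.image (fun q : Nat.Primes => (q : ℕ)))
    refine ⟨q, fun hqT' => hq1 ?_, ⟨fun hqT => hq1 ?_, hq2, hq3⟩, hq4⟩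
    · exact Finset.mem_union_right _ (Finset.mem_image_of_mem _ hqT')
    · exact Finset.mem_union_left _ hqT
  obtain ⟨qv, hinj, hgood, hkill⟩ := exists_kill_family (Z1 (levS S₀) (adTw p rbar))
    (B1 (adTw p rbar)) (CFT.B1_le_Z1 hsm) _ _ B1_le_comap_B1loc hex ∅
  refine ⟨qv, hinj, fun i => (hgood i).2, fun b hb hloc => ?_⟩
  refine hkill b (mem_Z1_levS_of_locally_trivial h.cont S₀ _ hpS hur b hb hloc) fun i => ?_
  exact hloc _ (Finset.mem_image_of_mem _ (Finset.mem_univ i))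

end Fermat.Agent.S56
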