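import Fermat.Agent.S56.Defs

/-!
# S56 / AD-IRR : `ad⁰ ρ̄` is irreducible (generic matrix form; wired in `TW/Hyp.lean`).
-/

set_option autoImplicit false

namespace Fermat.Agent.S56.AdIrr

open Matrix

variable {K : Type} [Field K]

/-- two vectors killed by a nonzero `2 × 2` matrix are proportional -/
theorem exists_smul_of_ker (N : Matrix (Fin 2) (Fin 2) K) (hN : N ≠ 0) (u u' : Fin 2 → K) (hu : u ≠ 0)
    (h1 : N.mulVec u = 0) (h2 : N.mulVec u' = 0) : ∃ c : K, u' = c • u := by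
  obtain ⟨i, hi⟩ : ∃ i, N i 0 ≠ 0 ∨ N i 1 ≠ 0 := by
    by_contra hcon
    push Not at hcon
    apply hN
    ext i j
    fin_cases j
    · exact (hcon i).1
    · exact (hcon i).2
  have e1 : N i 0 * u 0 + N i 1 * u 1 = 0 := by
    have := congrFun h1 i
    simpa [Matrix.mulVec, dotProduct, Fin.sum_univ_two] using this
  have e2 : N i 0 * u' 0 + N i 1 * u' 1 = 0 := by
    have := congrFun h2 i
    simpa [Matrix.mulVec, dotProduct, Fin.sum_univ_two] using this
  have hD : u 0 * u' 1 - u 1 * u' 0 = 0 := by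
    rcases hi with hi | hi
    · have : N i 0 * (u 0 * u' 1 - u 1 * u' 0) = 0 := by linear_combination u' 1 * e1 - u 1 * e2
      exact (mul_eq_zero.1 this).resolve_left hi
    · have : N i 1 * (u 0 * u' 1 - u 1 * u' 0) = 0 := by linear_combination u 0 * e2 - u' 0 * e1
      exact (mul_eq_zero.1 this).resolve_left hi
  by_cases h0 : u 0 = 0
  · have h1' : u 1 ≠ 0 := by
      intro h1'
      apply hu
      ext j
      fin_cases j
      · exact h0
      · exact h1'
    refine ⟨u' 1 / u 1, ?_⟩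
    have h3 : u' 0 = 0 := by
      rw [h0] at hD
      have : u 1 * u' 0 = 0 := by linear_combination -hD
      exact (mul_eq_zero.1 this).resolve_left h1'
    ext j
    fin_cases j
    · simp [h0, h3]
    · simp [h1']
  · refine ⟨u' 0 / u 0, ?_⟩
    ext j
    fin_cases j
    · simp [h0]
    · simp only [Fin.mk_one, Fin.isValue, Pi.smul_apply, smul_eq_mul]
      field_simp
      linear_combination hD

/-- a nonzero matrix does not kill all vectors -/
theorem exists_mulVec_ne_zero (N : Matrix (Fin 2) (Fin 2) K) (hN : N ≠ 0) :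
    ∃ w : Fin 2 → K, N.mulVec w ≠ 0 := by
  by_contra hcon
  push Not at hcon
  apply hN
  ext i j
  have := congrFun (hcon (Pi.single j 1)) i
  simpa using this

/-- Cayley-Hamilton for trace zero matrices -/
theorem mul_self_of_trace_eq_zero (m : Matrix (Fin 2) (Fin 2) K) (hm : m.trace = 0) :
    m * m = (-m.det) • (1 : Matrix (Fin 2) (Fin 2) K) := by
  rw [Matrix.trace_fin_two] at hm
  have h11 : m 1 1 = - m 0 0 := by linear_combination hm
  ext i j
  fin_cases i <;> fin_cases j <;>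
    simp [Matrix.mul_apply, Fin.sum_univ_two, Matrix.det_fin_two, h11] <;> ring

/-- a trace zero scalar matrix vanishes -/
theorem eq_zero_of_scalar (h2 : (2 : K) ≠ 0) (m : Matrix (Fin 2) (Fin 2) K) (hm : m.trace = 0) (c : K)
    (h : m = c • (1 : Matrix (Fin 2) (Fin 2) K)) : m = 0 := by
  rw [h, Matrix.trace_smul, Matrix.trace_one] at hm
  simp only [Fintype.card_fin, Nat.cast_ofNat, smul_eq_mul] at hm
  have : c = 0 := (mul_eq_zero.1 hm).resolve_right h2
  rw [h, this, zero_smul]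

/-- an eigenvector -/
theorem exists_eigen (h2 : (2 : K) ≠ 0) (M : Matrix (Fin 2) (Fin 2) K) (hM : M.trace = 0) (hM0 : M ≠ 0)
    (μ : K) (hμ : μ ^ 2 = - M.det) :
    M - μ • (1 : Matrix (Fin 2) (Fin 2) K) ≠ 0 ∧
      ∃ u : Fin 2 → K, u ≠ 0 ∧ (M - μ • (1 : Matrix (Fin 2) (Fin 2) K)).mulVec u = 0 := by
  have hne1 : M - μ • (1 : Matrix (Fin 2) (Fin 2) K) ≠ 0 := fun h =>
    hM0 (eq_zero_of_scalar h2 M hM μ (sub_eq_zero.1 h))
  have hne2 : M + μ • (1 : Matrix (Fin 2) (Fin 2) K) ≠ 0 := fun h =>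
    hM0 (eq_zero_of_scalar h2 M hM (-μ) (by rw [neg_smul]; exact eq_neg_of_add_eq_zero_left h))
  obtain ⟨w, hw⟩ := exists_mulVec_ne_zero _ hne2
  refine ⟨hne1, _, hw, ?_⟩
  rw [Matrix.mulVec_mulVec]
  have : (M - μ • (1 : Matrix (Fin 2) (Fin 2) K)) * (M + μ • (1 : Matrix (Fin 2) (Fin 2) K)) = 0 := by
    have h3 := mul_self_of_trace_eq_zero M hM
    rw [← hμ] at h3
    simp only [sub_mul, mul_add, h3, Matrix.smul_mul, Matrix.mul_smul, one_mul, mul_one, smul_smul]
    rw [pow_two]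
    abel
  rw [this, Matrix.zero_mulVec]

section Key

variable {k : Type} [Field k] {G : Type} [Group G] (r : G →* Matrix (Fin 2) (Fin 2) k)

local notation "Kc" => AlgebraicClosure k

theorem r_mul_inv (g : G) : r g * r g⁻¹ = 1 := by rw [← map_mul, mul_inv_cancel, map_one]
theorem r_inv_mul (g : G) : r g⁻¹ * r g = 1 := by rw [← map_mul, inv_mul_cancel, map_one]

/-- the centraliser of `m` -/
def cent (m : Matrix (Fin 2) (Fin 2) k) : Subgroup G where
  carrier := {σ | r σ * m = m * r σ}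
  one_mem' := by simp
  mul_mem' := fun {a b} ha hb => by
    simp only [Set.mem_ofPred_eq] at ha hb ⊢
    rw [map_mul, mul_assoc, hb, ← mul_assoc, ha, mul_assoc]
  inv_mem' := fun {a} ha => by
    simp only [Set.mem_ofPred_eq] at ha ⊢
    calc r a⁻¹ * m = r a⁻¹ * (m * r a) * r a⁻¹ := by
          rw [mul_assoc, mul_assoc, r_mul_inv, mul_one]
      _ = r a⁻¹ * (r a * m) * r a⁻¹ := by rw [ha]
      _ = m * r a⁻¹ := by rw [← mul_assoc, r_inv_mul, one_mul]

theorem mem_cent (m : Matrix (Fin 2) (Fin 2) k) (σ : G) : σ ∈ cent r m ↔ r σ * m = m * r σ := Iff.rfl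

/-- **no stable line in `sl₂`** -/
theorem no_stable_line (h2 : (2 : k) ≠ 0)
    (hirr : ∀ H : Subgroup G, (H = ⊤ ∨ H.index = 2) → ∀ v : Fin 2 → Kc, v ≠ 0 → ∃ σ ∈ H, ∀ c : Kc,
      ((r σ).map (algebraMap k Kc)).mulVec v ≠ c • v)
    (m : Matrix (Fin 2) (Fin 2) k) (hm : m.trace = 0) (hm0 : m ≠ 0)
    (hl : ∀ g : G, ∃ l : k, r g * m * r g⁻¹ = l • m) : False := by
  have h2' : (2 : Kc) ≠ 0 := by
    have := (map_ne_zero (algebraMap k Kc)).2 h2
    rwa [map_ofNat] at this
  set φ : Matrix (Fin 2) (Fin 2) k →+* Matrix (Fin 2) (Fin 2) Kc := (algebraMap k Kc).mapMatrix with hφ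
  have hφa : ∀ x : Matrix (Fin 2) (Fin 2) k, x.map (algebraMap k Kc) = φ x := fun _ => rfl
  have hφinj : Function.Injective φ := by
    intro a b hab
    ext i j
    have := congrFun (congrFun hab i) j
    exact (algebraMap k Kc).injective this
  have hsm : ∀ (l : k) (x : Matrix (Fin 2) (Fin 2) k), φ (l • x) = algebraMap k Kc l • φ x := by
    intro l x
    ext i j
    simp [hφ]
  have hM : (φ m).trace = 0 := by
    have : (φ m).trace = algebraMap k Kc m.trace := by
      simp [hφ, Matrix.trace_fin_two]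
    rw [this, hm, map_zero]
  have hM0 : φ m ≠ 0 := fun h => hm0 (hφinj (h.trans (map_zero φ).symm))
  have hdet : (φ m).det = algebraMap k Kc m.det := ((algebraMap k Kc).map_det m).symm
  obtain ⟨μ, hμ⟩ := IsAlgClosed.exists_pow_nat_eq (-(φ m).det) (n := 2) (by norm_num)
  obtain ⟨hN, u, hu, hNu⟩ := exists_eigen h2' (φ m) hM hM0 μ hμ
  -- a criterion for stability of the line
  have hstab : ∀ σ : G, (∃ t : Kc, (φ m - μ • (1 : Matrix (Fin 2) (Fin 2) Kc)) * φ (r σ) =
      t • (φ (r σ) * (φ m - μ • (1 : Matrix (Fin 2) (Fin 2) Kc)))) →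
      ∃ c : Kc, ((r σ).map (algebraMap k Kc)).mulVec u = c • u := by
    rintro σ ⟨t, ht⟩
    refine exists_smul_of_ker _ hN u _ hu hNu ?_
    rw [hφa, Matrix.mulVec_mulVec, ht, Matrix.smul_mulVec, ← Matrix.mulVec_mulVec, hNu,
      Matrix.mulVec_zero, smul_zero]
  by_cases hd : m.det = 0
  · -- nilpotent case
    have hμ0 : μ = 0 := by
      rw [hdet, hd, map_zero, neg_zero] at hμ
      exact pow_eq_zero_iff (two_ne_zero) |>.1 hμ
    obtain ⟨σ, -, hσ⟩ := hirr ⊤ (Or.inl rfl) u hu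
    obtain ⟨l, hl'⟩ := hl σ⁻¹
    rw [inv_inv] at hl'
    have h3 : m * r σ = l • (r σ * m) := by
      calc m * r σ = r σ * (r σ⁻¹ * m * r σ) := by
            rw [← mul_assoc, ← mul_assoc, r_mul_inv, one_mul]
        _ = l • (r σ * m) := by rw [hl', Matrix.mul_smul]
    obtain ⟨c, hc⟩ := hstab σ ⟨algebraMap k Kc l, by
      rw [hμ0, zero_smul, sub_zero, ← map_mul, h3, ← map_mul, hsm]⟩
    exact hσ c hc
  · -- semisimple case
    have hsq : ∀ g : G, r g * m = m * r g ∨ r g * m = -(m * r g) := by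
      intro g
      obtain ⟨l, hl'⟩ := hl g
      have h3 : r g * m = l • (m * r g) := by
        calc r g * m = (r g * m * r g⁻¹) * r g := by rw [mul_assoc, r_inv_mul, mul_one]
          _ = l • (m * r g) := by rw [hl', Matrix.smul_mul]
      have h4 : (r g * m * r g⁻¹) * (r g * m * r g⁻¹) = (-m.det) • (1 : Matrix (Fin 2) (Fin 2) k) := by
        calc (r g * m * r g⁻¹) * (r g * m * r g⁻¹) = r g * (m * (r g⁻¹ * r g) * m) * r g⁻¹ := by
              simp only [mul_assoc]
          _ = r g * (m * m) * r g⁻¹ := by rw [r_inv_mul, mul_one]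
          _ = (-m.det) • (1 : Matrix (Fin 2) (Fin 2) k) := by
              rw [mul_self_of_trace_eq_zero m hm, Matrix.mul_smul, Matrix.smul_mul, mul_one, r_mul_inv]
      rw [hl', Matrix.smul_mul, Matrix.mul_smul, mul_self_of_trace_eq_zero m hm, smul_smul, smul_smul] at h4
      have h5 := congrFun (congrFun h4 0) 0
      simp only [Matrix.smul_apply, Matrix.one_apply_eq, smul_eq_mul, mul_one] at h5
      have h6 : (l - 1) * (l + 1) = 0 := by
        have : (l * l - 1) * (-m.det) = 0 := by linear_combination h5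
        have := (mul_eq_zero.1 this).resolve_right (neg_ne_zero.2 hd)
        linear_combination this
      rcases mul_eq_zero.1 h6 with h7 | h7
      · left
        rw [h3, sub_eq_zero.1 h7, one_smul]
      · right
        rw [h3, eq_neg_of_add_eq_zero_left h7, neg_smul, one_smul]
    have hnot : ∀ g : G, r g * m = m * r g → r g * m = -(m * r g) → False := by
      intro g h3 h4
      have h5 : (2 : k) • (r g * m) = 0 := by
        rw [two_smul]
        nth_rewrite 1 [h4]
        rw [h3, neg_add_cancel]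
      have h6 : r g * m = 0 := (smul_eq_zero.1 h5).resolve_left h2
      apply hm0
      calc m = r g⁻¹ * (r g * m) := by rw [← mul_assoc, r_inv_mul, one_mul]
        _ = 0 := by rw [h6, mul_zero]
    have hind : cent r m = ⊤ ∨ (cent r m).index = 2 := by
      by_cases htop : cent r m = ⊤
      · exact Or.inl htop
      right
      obtain ⟨a, ha⟩ : ∃ a : G, a ∉ cent r m := by
        by_contra hcon
        push Not at hcon
        exact htop (eq_top_iff.2 fun x _ => hcon x)
      have ha' : r a * m = -(m * r a) := (hsq a).resolve_left ha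
      rw [Subgroup.index_eq_two_iff]
      refine ⟨a, fun b => ?_⟩
      rcases hsq b with hb | hb
      · refine Or.inr ⟨hb, fun hba => ?_⟩
        rw [mem_cent] at hba
        refine hnot (b * a) hba ?_
        rw [map_mul, mul_assoc, ha', mul_neg, ← mul_assoc, hb, mul_assoc]
      · refine Or.inl ⟨?_, fun hb' => hnot b hb' hb⟩
        rw [mem_cent, map_mul, mul_assoc, ha', mul_neg, ← mul_assoc, hb, neg_mul, neg_neg, mul_assoc]
    obtain ⟨σ, hσH, hσ⟩ := hirr (cent r m) hind u hu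
    obtain ⟨c, hc⟩ := hstab σ ⟨1, by
      rw [one_smul, sub_mul, mul_sub, ← map_mul, ← map_mul, (mem_cent r m σ).1 hσH,
        Matrix.smul_mul, Matrix.mul_smul, one_mul, mul_one]⟩
    exact hσ c hc

end Key

section Sl2

open Module

variable {k : Type} [Field k] (rbar : GQ →* M2 k)

local notation "Kc" => AlgebraicClosure k

theorem finrank_sl2 : finrank k ↥(sl2 k) = 3 := by
  have h1 := LinearMap.finrank_range_add_finrank_ker (Matrix.traceLinearMap (Fin 2) k k)
  have h2 : LinearMap.range (Matrix.traceLinearMap (Fin 2) k k) = ⊤ := by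
    rw [LinearMap.range_eq_top]
    intro c
    exact ⟨!![c, 0; 0, 0], by simp [Matrix.trace_fin_two]⟩
  rw [h2, finrank_top, Module.finrank_self, Module.finrank_matrix] at h1
  simp only [Fintype.card_fin, Module.finrank_self] at h1
  have h3 : finrank k ↥(sl2 k) = finrank k ↥(LinearMap.ker (Matrix.traceLinearMap (Fin 2) k k)) := rfl
  omega

theorem trP_ker (h2 : (2 : k) ≠ 0) : LinearMap.ker (trP k) = ⊥ := by
  rw [LinearMap.ker_eq_bot']
  intro x hx
  have e12 : (!![0, 1; 0, 0] : M2 k) ∈ sl2 k := by simp [mem_sl2, Matrix.trace_fin_two]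
  have e21 : (!![0, 0; 1, 0] : M2 k) ∈ sl2 k := by simp [mem_sl2, Matrix.trace_fin_two]
  have e11 : (!![1, 0; 0, -1] : M2 k) ∈ sl2 k := by simp [mem_sl2, Matrix.trace_fin_two]
  have h12 := LinearMap.congr_fun hx ⟨_, e12⟩
  have h21 := LinearMap.congr_fun hx ⟨_, e21⟩
  have h11 := LinearMap.congr_fun hx ⟨_, e11⟩
  have htr : (x : M2 k) 0 0 + (x : M2 k) 1 1 = 0 := by
    have := x.2
    rwa [mem_sl2, Matrix.trace_fin_two] at this
  simp only [trP_apply, Matrix.trace_fin_two, Matrix.mul_apply, Fin.sum_univ_two, Matrix.of_apply,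
    Matrix.cons_val', Matrix.cons_val_zero, Matrix.cons_val_one, Matrix.cons_val_fin_one,
    LinearMap.zero_apply, mul_zero, mul_one, add_zero, zero_add, mul_neg] at h12 h21 h11
  have h00 : (x : M2 k) 0 0 = 0 := by
    have : (2 : k) * (x : M2 k) 0 0 = 0 := by linear_combination h11 + htr
    exact (mul_eq_zero.1 this).resolve_left h2
  apply Subtype.ext
  ext i j
  fin_cases i <;> fin_cases j
  · exact h00
  · exact h21
  · exact h12
  · show (x : M2 k) 1 1 = 0
    linear_combination htr - h00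

variable {rbar}

/-- a stable subspace of `sl₂` is not a line -/
theorem finrank_ne_one (h2 : (2 : k) ≠ 0)
    (hirr : ∀ H : Subgroup GQ, (H = ⊤ ∨ H.index = 2) → ∀ v : Fin 2 → Kc, v ≠ 0 → ∃ σ ∈ H, ∀ c : Kc,
      ((rbar σ).map (algebraMap k Kc)).mulVec v ≠ c • v)
    (Z : Submodule k (sl2 k)) (hZ : ∀ g, ∀ y ∈ Z, adRep rbar g y ∈ Z) : finrank k ↥Z ≠ 1 := by
  intro h1
  have hfree := Module.Free.of_divisionRing k ↥Z
  obtain ⟨v, hv, hspan⟩ := (finrank_eq_one_iff' (K := k) (V := ↥Z)).1 h1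
  refine no_stable_line rbar h2 hirr ((v : sl2 k) : M2 k) (v : sl2 k).2 ?_ fun g => ?_
  · intro h0
    exact hv (Subtype.ext (Subtype.ext h0))
  · obtain ⟨c, hc⟩ := hspan ⟨adRep rbar g v, hZ g v v.2⟩
    refine ⟨c, ?_⟩
    have := congrArg (fun z : ↥Z => ((z : sl2 k) : M2 k)) hc
    exact this.symm

theorem irreducible (h2 : (2 : k) ≠ 0)
    (hirr : ∀ H : Subgroup GQ, (H = ⊤ ∨ H.index = 2) → ∀ v : Fin 2 → Kc, v ≠ 0 → ∃ σ ∈ H, ∀ c : Kc,
      ((rbar σ).map (algebraMap k Kc)).mulVec v ≠ c • v)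
    (Y : Submodule k (sl2 k)) (hY : ∀ g, ∀ y ∈ Y, adRep rbar g y ∈ Y) : Y = ⊥ ∨ Y = ⊤ := by
  have hfd : FiniteDimensional k ↥(sl2 k) := inferInstance
  have hZ : ∀ g, ∀ y ∈ LinearMap.BilinForm.orthogonal (trP k) Y,
      adRep rbar g y ∈ LinearMap.BilinForm.orthogonal (trP k) Y := by
    intro g y hy n hn
    have h3 := hy _ (hY g⁻¹ n hn)
    show trP k n (adRep rbar g y) = 0
    change trP k (adRep rbar g⁻¹ n) y = 0 at h3
    rw [trP_apply, adRep_apply_coe] at h3 ⊢
    rw [inv_inv] at h3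
    rw [← h3, ← mul_assoc, ← mul_assoc, Matrix.trace_mul_comm, ← mul_assoc, ← mul_assoc]
  have e1 := finrank_ne_one h2 hirr Y hY
  have e2 := finrank_ne_one h2 hirr _ hZ
  have e3 := LinearMap.BilinForm.finrank_add_finrank_orthogonal' (B := trP k) Y
  have e4 : LinearMap.ker (trP k) = ⊥ := trP_ker h2
  rw [e4, inf_bot_eq, finrank_bot, add_zero, finrank_sl2] at e3
  have e5 : finrank k ↥Y = 0 ∨ finrank k ↥Y = 3 := by omega
  rcases e5 with e5 | e5
  · exact Or.inl (Submodule.finrank_eq_zero.1 e5)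
  · exact Or.inr (Submodule.eq_top_of_finrank_eq (e5.trans finrank_sl2.symm))

theorem eq_zero_of_line (h2 : (2 : k) ≠ 0)
    (hirr : ∀ H : Subgroup GQ, (H = ⊤ ∨ H.index = 2) → ∀ v : Fin 2 → Kc, v ≠ 0 → ∃ σ ∈ H, ∀ c : Kc,
      ((rbar σ).map (algebraMap k Kc)).mulVec v ≠ c • v)
    (w : sl2 k) (hw : ∀ g, ∃ l : k, adRep rbar g w = l • w) : w = 0 := by
  by_contra hw0
  refine no_stable_line rbar h2 hirr (w : M2 k) w.2 (fun h0 => hw0 (Subtype.ext h0)) fun g => ?_
  obtain ⟨l, hl⟩ := hw g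
  exact ⟨l, congrArg Subtype.val hl⟩

end Sl2

end Fermat.Agent.S56.AdIrr
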