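import Fermat.Agent.S56.Defs
import Fermat.Agent.S56.TW.AdIrr

/-!
# S56 / TW-HYP : the hypotheses on `rbar` in matrix form, and the representations `W = adRep`, `W' = adTw`.

[AD-IRR]  `W = sl₂(k)` is an irreducible `k[G]`-module.   Let `Y ≠ 0, W` be stable.
 * `dim Y = 1`, `Y = k m`: `g m g⁻¹ = λ(g) m`.  `m² = - det m` (Cayley-Hamilton, `tr m = 0`).  If `det m = 0`: `ker m` is a `G`-stable line of `k²`: contradiction with `irr`.
   If `det m ≠ 0`: conjugating `m²` gives `λ² = 1`; `H := {σ | λ σ = 1}` has index `1` or `2` and commutes with `m`; over `k̄` the matrix `m` has the two distinct eigenvalues `± √(-det m)` (`p ≠ 2`), its eigenlines are `H`-stable: contradiction with `irr` / `irr2`.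
 * `dim Y = 2`: `Y^⊥` (trace form, non degenerate on `sl₂` as `p ≠ 2`) is a stable line.
[AD-H0] `W^G = 0`, `W'^G = 0`: an invariant `m ≠ 0` of `W` or `W'` spans a stable line of `W`.
-/

set_option autoImplicit false

open ExtCitation Polynomial

namespace Fermat.Agent.S56

open CFT (levS levAll decomp Z1 B1 Qb IsSmooth IsEquivPairing)

variable {k : Type} [Field k]

/-- no `H`-stable line in `k̄²` -/
def AbsIrrOn (rbar : GQ →* M2 k) (H : Subgroup GQ) : Prop :=
  ∀ v : Fin 2 → AlgebraicClosure k, v ≠ 0 → ∃ σ ∈ H, ∀ c : AlgebraicClosure k,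
    ((rbar σ).map (algebraMap k (AlgebraicClosure k))).mulVec v ≠ c • v

/-- the hypotheses of S56 on `ρ̄`, in matrix form -/
structure RbarHyp (p : ℕ) [Fact p.Prime] [CharP k p] (rbar : GQ →* M2 k) : Prop where
  cont : GaloisFactorsThroughFiniteLevel rbar
  det : ∀ σ, (rbar σ).det = (chiK p k σ : k)
  split : ∀ σ, ∃ α β : k, (rbar σ).charpoly = (X - C α) * (X - C β)
  irr : AbsIrrOn rbar ⊤
  irr2 : ∀ H : Subgroup GQ, H.index = 2 → AbsIrrOn rbar H

/-- `rbar` is unramified outside `T` -/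
def UnramOutside (rbar : GQ →* M2 k) (T : Finset Nat.Primes) : Prop :=
  ∀ q : Nat.Primes, q ∉ T → ∀ A : ValuationSubring Qb, A.LiesOverPrime (q : ℕ) →
    ∀ σ ∈ A.inertiaSubgroupIn ℚ, rbar σ = 1

/-- `Gal(ℚbar/ℚ(μ_N))` -/
def cycSub (N : ℕ) : Subgroup GQ where
  carrier := {σ | ∀ μ : Qb, μ ^ N = 1 → σ μ = μ}
  one_mem' := fun _ _ => rfl
  mul_mem' := fun {a b} ha hb μ hμ => by rw [AlgEquiv.mul_apply, hb μ hμ, ha μ hμ]
  inv_mem' := fun {a} ha μ hμ => by
    have h := ha μ hμ
    calc a⁻¹ μ = a⁻¹ (a μ) := by rw [h]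
      _ = μ := a.symm_apply_apply μ

variable {p : ℕ} [Fact p.Prime] [CharP k p] {rbar : GQ →* M2 k}

/-- no stable line over `k` itself -/
theorem RbarHyp.noLine (h : RbarHyp p rbar) (v : Fin 2 → k) (hv : v ≠ 0) :
    ∃ σ : GQ, ∀ c : k, (rbar σ).mulVec v ≠ c • v := by
  have hv' : (algebraMap k (AlgebraicClosure k)) ∘ v ≠ 0 := by
    intro h0
    apply hv
    funext i
    exact (map_eq_zero (algebraMap k (AlgebraicClosure k))).1 (congrFun h0 i)
  obtain ⟨σ, -, hσ⟩ := h.irr _ hv'
  refine ⟨σ, fun c hc => hσ (algebraMap k _ c) ?_⟩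
  funext i
  rw [← RingHom.map_mulVec, hc]
  simp

theorem RbarHyp.two_ne_zero (hp2 : p ≠ 2) : (2 : k) ≠ 0 := by
  intro h0
  have h1 : ((2 : ℕ) : k) = 0 := by exact_mod_cast h0
  rw [CharP.cast_eq_zero_iff k p 2] at h1
  exact hp2 ((Nat.prime_dvd_prime_iff_eq Fact.out Nat.prime_two).1 h1)

theorem RbarHyp.hirr (h : RbarHyp p rbar) : ∀ H : Subgroup GQ, (H = ⊤ ∨ H.index = 2) →
    ∀ v : Fin 2 → AlgebraicClosure k, v ≠ 0 → ∃ σ ∈ H, ∀ c : AlgebraicClosure k,
      ((rbar σ).map (algebraMap k (AlgebraicClosure k))).mulVec v ≠ c • v := by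
  rintro H (rfl | hH)
  · exact h.irr
  · exact h.irr2 H hH

/-- **[AD-IRR]** -/
theorem adRep_irreducible (hp2 : p ≠ 2) (h : RbarHyp p rbar) (Y : Submodule k (sl2 k))
    (hY : ∀ g, ∀ y ∈ Y, adRep rbar g y ∈ Y) : Y = ⊥ ∨ Y = ⊤ :=
  AdIrr.irreducible (RbarHyp.two_ne_zero (k := k) hp2) h.hirr Y hY

theorem adRep_invariants (hp2 : p ≠ 2) (h : RbarHyp p rbar) (w : sl2 k)
    (hw : ∀ g, adRep rbar g w = w) : w = 0 :=
  AdIrr.eq_zero_of_line (RbarHyp.two_ne_zero (k := k) hp2) h.hirr w
    fun g => ⟨1, by rw [hw g, one_smul]⟩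

theorem adTw_invariants (hp2 : p ≠ 2) (h : RbarHyp p rbar) (w : sl2 k)
    (hw : ∀ g, adTw p rbar g w = w) : w = 0 := by
  refine AdIrr.eq_zero_of_line (RbarHyp.two_ne_zero (k := k) hp2) h.hirr w
    fun g => ⟨((chiK p k g)⁻¹ : kˣ), ?_⟩
  have h1 := hw g
  rw [adTw, Representation.twist_apply_apply] at h1
  nth_rewrite 2 [← h1]
  rw [smul_smul, Units.inv_mul, one_smul]

theorem trP_isEquivPairing (rbar : GQ →* M2 k) :
    IsEquivPairing (adRep rbar) (adTw p rbar) (chiK p k) (trP k) := by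
  intro g x y
  have h1 : rbar g⁻¹ * rbar g = 1 := by rw [← map_mul, inv_mul_cancel, map_one]
  have e : rbar g * (x : M2 k) * rbar g⁻¹ * (rbar g * (y : M2 k) * rbar g⁻¹) =
      rbar g * ((x : M2 k) * (y : M2 k) * rbar g⁻¹) := by
    calc rbar g * (x : M2 k) * rbar g⁻¹ * (rbar g * (y : M2 k) * rbar g⁻¹)
        = rbar g * (x : M2 k) * (rbar g⁻¹ * rbar g) * (y : M2 k) * rbar g⁻¹ := by
          simp only [mul_assoc]
      _ = _ := by rw [h1, mul_one]; simp only [mul_assoc]
  rw [adTw, Representation.twist_apply_apply, map_smul, smul_eq_mul, trP_apply, trP_apply,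
    adRep_apply_coe, adRep_apply_coe, e, Matrix.trace_mul_comm, mul_assoc, mul_assoc, h1, mul_one]

theorem trP_left (h2 : (2 : k) ≠ 0) (x : sl2 k) (hx : ∀ y, trP k x y = 0) : x = 0 := by
  have hx0 : (x : M2 k) 0 0 + (x : M2 k) 1 1 = 0 := by
    have := (mem_sl2 _).mp x.2
    rwa [Matrix.trace_fin_two] at this
  have h1 := hx ⟨!![0, 1; 0, 0], by rw [mem_sl2, Matrix.trace_fin_two]; simp⟩
  have h2' := hx ⟨!![0, 0; 1, 0], by rw [mem_sl2, Matrix.trace_fin_two]; simp⟩
  have h3 := hx ⟨!![1, 0; 0, -1], by rw [mem_sl2, Matrix.trace_fin_two]; simp⟩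
  simp only [trP_apply, Matrix.trace_fin_two, Matrix.mul_apply, Fin.sum_univ_two, Matrix.of_apply,
    Matrix.cons_val', Matrix.cons_val_zero, Matrix.cons_val_one, Matrix.cons_val_fin_one,
    mul_zero, mul_one, add_zero, zero_add, mul_neg] at h1 h2' h3
  have h4 : (x : M2 k) 0 0 = 0 := by
    have : (2 : k) * (x : M2 k) 0 0 = 0 := by linear_combination h3 + hx0
    exact (mul_eq_zero.mp this).resolve_left h2
  apply Subtype.ext
  ext i j
  fin_cases i <;> fin_cases j
  · exact h4
  · exact h2'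
  · exact h1
  · show (x : M2 k) 1 1 = 0
    linear_combination hx0 - h4

theorem trP_right (h2 : (2 : k) ≠ 0) (y : sl2 k) (hy : ∀ x, trP k x y = 0) : y = 0 := by
  refine trP_left h2 y fun x => ?_
  rw [trP_apply, Matrix.trace_mul_comm]
  exact hy x

theorem card_sl2 [Finite k] : Nat.card ↥(sl2 k) = Nat.card k ^ 3 := by
  let e : (k × k × k) ≃ ↥(sl2 k) :=
    { toFun := fun t => ⟨!![t.1, t.2.1; t.2.2, -t.1], by rw [mem_sl2, Matrix.trace_fin_two]; simp⟩
      invFun := fun w => ((w : M2 k) 0 0, (w : M2 k) 0 1, (w : M2 k) 1 0)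
      left_inv := fun t => by simp
      right_inv := fun w => by
        have hw0 : (w : M2 k) 0 0 + (w : M2 k) 1 1 = 0 := by
          have := (mem_sl2 _).mp w.2
          rwa [Matrix.trace_fin_two] at this
        apply Subtype.ext
        ext i j
        fin_cases i <;> fin_cases j
        · rfl
        · rfl
        · rfl
        · show -(w : M2 k) 0 0 = (w : M2 k) 1 1
          linear_combination -hw0 }
  rw [← Nat.card_congr e, Nat.card_prod, Nat.card_prod]
  ring

/-- [LEV] a continuous homomorphism unramified outside `T` is trivial on a level of `levS T`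
(copy of the proof of `CFT.isSmooth_levS`) -/
theorem exists_level_of_unram {M : Type} [Monoid M] (f : GQ →* M)
    (hcont : GaloisFactorsThroughFiniteLevel f) (T : Finset Nat.Primes)
    (hur : ∀ q : Nat.Primes, q ∉ T → ∀ A : ValuationSubring Qb, A.LiesOverPrime (q : ℕ) →
      ∀ σ ∈ A.inertiaSubgroupIn ℚ, f σ = 1) :
    ∃ U ∈ (levS T).carrier, ∀ s ∈ U, f s = 1 := by
  obtain ⟨F, hF, hFf⟩ := hcont
  have hker : F.fixingSubgroup ≤ f.ker := by
    intro s hs
    rw [MonoidHom.mem_ker]
    exact hFf s fun x hx => (IntermediateField.mem_fixingSubgroup_iff F s).mp hs x hx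
  have hopen : IsOpen (f.ker : Set GQ) :=
    Subgroup.isOpen_mono hker (IntermediateField.fixingSubgroup_isOpen F)
  let H : ClosedSubgroup GQ := ⟨f.ker, Subgroup.isClosed_of_isOpen _ hopen⟩
  let F' : IntermediateField ℚ Qb := IntermediateField.fixedField f.ker
  have hF' : F'.fixingSubgroup = f.ker := InfiniteGalois.fixingSubgroup_fixedField H
  have hle : F' ≤ F := by
    have := IntermediateField.fixedField_antitone hker
    rwa [InfiniteGalois.fixedField_fixingSubgroup] at this
  have hfin : FiniteDimensional ℚ F' :=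
    FiniteDimensional.of_injective (IntermediateField.inclusion hle).toLinearMap
      (IntermediateField.inclusion_injective hle)
  have hur' : F'.IsUnramifiedOutside T := by
    refine ⟨hfin, fun q hq A hA g hg => ?_⟩
    rw [hF', MonoidHom.mem_ker]
    exact hur q hq A hA g hg
  obtain ⟨U, hU, hle'⟩ := CFT.exists_levS_le hur'
  refine ⟨U, hU, fun s hs => ?_⟩
  have hs' := hle' hs
  rwa [hF', MonoidHom.mem_ker] at hs'

theorem adRep_smooth (hcont : GaloisFactorsThroughFiniteLevel rbar) (T : Finset Nat.Primes)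
    (hur : UnramOutside rbar T) : IsSmooth (levS T) (adRep rbar) := by
  obtain ⟨U, hU, h⟩ := exists_level_of_unram rbar hcont T hur
  intro w
  refine ⟨U, hU, fun s hs => ?_⟩
  apply Subtype.ext
  rw [adRep_apply_coe, h s hs, h s⁻¹ (U.inv_mem hs), one_mul, mul_one]

theorem adTw_smooth (hcont : GaloisFactorsThroughFiniteLevel rbar) (T : Finset Nat.Primes)
    (hpT : pPrime p ∈ T) (hur : UnramOutside rbar T) : IsSmooth (levS T) (adTw p rbar) := by
  obtain ⟨U, hU, h⟩ := exists_level_of_unram rbar hcont T hur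
  obtain ⟨U', hU', h'⟩ := CFT.cycloChar_smooth T hpT
  obtain ⟨V, hV, hVU, hVU'⟩ := (levS T).directed U hU U' hU'
  intro w
  refine ⟨V, hV, fun s hs => ?_⟩
  have hχ : chiK p k s = 1 := by
    rw [chiK, MonoidHom.comp_apply, h' s (hVU' hs), map_one]
  rw [adTw, Representation.twist_apply_apply, hχ, Units.val_one, one_smul]
  apply Subtype.ext
  rw [adRep_apply_coe, h s (hVU hs), h s⁻¹ (U.inv_mem (hVU hs)), one_mul, mul_one]

/-- `dim W^{c=1} = 1` for a complex conjugation -/
theorem card_fixed_conj [Finite k] (hp2 : p ≠ 2) (hdet : ∀ σ, (rbar σ).det = (chiK p k σ : k)) (c : GQ)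
    (hc : c * c = 1) (hχ : cycloChar p c = -1) :
    Nat.card {w : sl2 k // adRep rbar c w = w} = Nat.card k := by
  have h2 : (2 : k) ≠ 0 := by
    intro h
    have h' : ((2 : ℕ) : k) = 0 := by exact_mod_cast h
    rw [CharP.cast_eq_zero_iff k p 2] at h'
    exact hp2 ((Nat.prime_dvd_prime_iff_eq Fact.out Nat.prime_two).mp h')
  set C : M2 k := rbar c with hC
  have hCC : C * C = 1 := by rw [hC, ← map_mul, hc, map_one]
  have hcinv : c⁻¹ = c := inv_eq_of_mul_eq_one_left hc
  have hdetC : C.det = -1 := by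
    rw [hC, hdet, chiK, MonoidHom.comp_apply, hχ]
    simp
  -- `tr C = 0`
  have htr : C.trace = 0 := by
    have hCH := Matrix.aeval_self_charpoly C
    rw [Matrix.charpoly_fin_two] at hCH
    simp only [map_add, map_sub, map_mul, Polynomial.aeval_X, Polynomial.aeval_C, hdetC,
      sq, hCC] at hCH
    have h3 : C.trace • C = 0 := by
      have e : (algebraMap k (M2 k)) C.trace * C = C.trace • C := by
        rw [Algebra.smul_def]
      rw [← e]
      have e2 : (algebraMap k (M2 k)) (-1) = -1 := by simp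
      rw [e2] at hCH
      have : (1 : M2 k) - (algebraMap k (M2 k)) C.trace * C + -1 = 0 := hCH
      have e3 : (1 : M2 k) - (algebraMap k (M2 k)) C.trace * C + -1 =
          -((algebraMap k (M2 k)) C.trace * C) := by abel
      rw [e3, neg_eq_zero] at this
      exact this
    have hC0 : C ≠ 0 := by
      intro h0
      rw [h0, mul_zero] at hCC
      exact zero_ne_one hCC
    exact (smul_eq_zero.mp h3).resolve_right hC0
  have hCsl : C ∈ sl2 k := (mem_sl2 _).mpr htr
  -- anticommutator of trace zero matrices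
  have hanti : ∀ A B : M2 k, A.trace = 0 → B.trace = 0 → A * B + B * A = (A * B).trace • 1 := by
    intro A B hA hB
    rw [Matrix.trace_fin_two] at hA hB
    have hA' : A 1 1 = -A 0 0 := by linear_combination hA
    have hB' : B 1 1 = -B 0 0 := by linear_combination hB
    ext i j
    fin_cases i <;> fin_cases j <;>
      simp [Matrix.mul_apply, Fin.sum_univ_two, Matrix.trace_fin_two, hA', hB'] <;> ring
  have hfix : ∀ w : sl2 k, adRep rbar c w = w ↔ C * (w : M2 k) = (w : M2 k) * C := by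
    intro w
    rw [Subtype.ext_iff, adRep_apply_coe, hcinv, ← hC]
    constructor
    · intro h
      calc C * (w : M2 k) = C * (w : M2 k) * (C * C) := by rw [hCC, mul_one]
        _ = C * (w : M2 k) * C * C := by simp only [mul_assoc]
        _ = (w : M2 k) * C := by rw [h]
    · intro h
      rw [h, mul_assoc, hCC, mul_one]
  let e : k ≃ {w : sl2 k // adRep rbar c w = w} :=
    Equiv.ofBijective (fun t => ⟨t • ⟨C, hCsl⟩, by
      rw [hfix]
      simp⟩) (by
      constructor
      · intro t t' htt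
        have h3 : t • C = t' • C := congrArg (fun w => ((w : {w : sl2 k // adRep rbar c w = w}) :
          sl2 k).1) htt
        have h4 : (t • C) * C = (t' • C) * C := by rw [h3]
        rw [Matrix.smul_mul, Matrix.smul_mul, hCC] at h4
        have h5 := congrFun (congrFun h4 0) 0
        simpa using h5
      · rintro ⟨w, hw⟩
        rw [hfix] at hw
        have hwtr : (w : M2 k).trace = 0 := (mem_sl2 _).mp w.2
        refine ⟨((w : M2 k) * C).trace / 2, ?_⟩
        apply Subtype.ext
        apply Subtype.ext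
        show (((w : M2 k) * C).trace / 2) • C = (w : M2 k)
        have h3 := hanti (w : M2 k) C hwtr htr
        rw [hw, ← two_smul k ((w : M2 k) * C)] at h3
        have h4 : ((2 : k) • ((w : M2 k) * C)) * C = ((((w : M2 k) * C).trace) • (1 : M2 k)) * C := by
          rw [h3]
        rw [Matrix.smul_mul, mul_assoc, hCC, mul_one, Matrix.smul_mul, one_mul] at h4
        rw [div_eq_mul_inv, mul_comm, mul_smul, ← h4, smul_smul, inv_mul_cancel₀ h2, one_smul])
  rw [← Nat.card_congr e]

end Fermat.Agent.S56
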