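import Fermat.Agent.S56.TW.Sigma
import Fermat.Agent.S56.V.Main
import Fermat.Agent.CFT.K.BridgeCyclo

/-!
# S56 / TW-A : a cocycle of `W' = adTw` vanishing on `ker rbar ∩ cycSub N` is a coboundary.
(paper proof: header of `TW/Key.lean`)
-/

set_option autoImplicit false

open ExtCitation Polynomial

namespace Fermat.Agent.S56.TWA

open CFT (d12 d01 B1)

variable {k : Type} [Field k] {p : ℕ} [Fact p.Prime] [CharP k p] {rbar : GQ →* M2 k}

theorem coc_mul {ψ : GQ → sl2 k} (hψ : d12 (adTw p rbar) ψ = 0) (g h : GQ) :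
    ψ (g * h) = ψ g + adTw p rbar g (ψ h) := by
  have := congrFun hψ (g, h)
  simp only [CFT.d12_apply, Pi.zero_apply] at this
  have h2 : adTw p rbar g (ψ h) + ψ g - ψ (g * h) = 0 := by rw [← this]; abel
  rw [← sub_eq_zero, ← neg_eq_zero, ← h2]
  abel

theorem coc_one {ψ : GQ → sl2 k} (hψ : d12 (adTw p rbar) ψ = 0) : ψ 1 = 0 := by
  have := coc_mul hψ 1 1
  rw [mul_one, map_one, Module.End.one_apply] at this
  exact left_eq_add.1 this

theorem adTw_coe (g : GQ) (w : sl2 k) :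
    ((adTw p rbar g w : sl2 k) : M2 k) = (chiK p k g : k) • (rbar g * (w : M2 k) * rbar g⁻¹) := rfl

theorem adTw_triv (hdet : ∀ σ, (rbar σ).det = (chiK p k σ : k)) {z : GQ} (hz : rbar z = 1) (w : sl2 k) :
    adTw p rbar z w = w := by
  apply Subtype.ext
  have h1 : rbar z⁻¹ = 1 := by
    have : rbar z * rbar z⁻¹ = 1 := by rw [← map_mul, mul_inv_cancel, map_one]
    rwa [hz, one_mul] at this
  rw [adTw_coe, ← hdet, hz, h1, Matrix.det_one, one_smul, one_mul, mul_one]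

/-- steps (1), (2): `ψ` vanishes on `ker rbar` -/
theorem vanish_ker (hp2 : p ≠ 2) (h : RbarHyp p rbar) (N : ℕ) (hN : N ≠ 0) (ψ : GQ → sl2 k)
    (hψ : d12 (adTw p rbar) ψ = 0) (hv : ∀ σ ∈ cycSub N, rbar σ = 1 → ψ σ = 0) {z : GQ}
    (hz : rbar z = 1) : ψ z = 0 := by
  refine adTw_invariants hp2 h (ψ z) fun g => ?_
  have hz' : rbar z⁻¹ = 1 := by
    have : rbar z * rbar z⁻¹ = 1 := by rw [← map_mul, mul_inv_cancel, map_one]
    rwa [hz, one_mul] at this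
  -- `ψ (g z g⁻¹) = g ψ z`
  have h1 : ψ (g * z * g⁻¹) = adTw p rbar g (ψ z) := by
    have e1 : ψ g + adTw p rbar g (ψ g⁻¹) = 0 := by
      rw [← coc_mul hψ, mul_inv_cancel, coc_one hψ]
    rw [mul_assoc, coc_mul hψ, coc_mul hψ z, adTw_triv h.det hz, map_add, ← add_assoc,
      add_right_comm, e1, zero_add]
  -- the commutator
  have hc : rbar (g * z * g⁻¹ * z⁻¹) = 1 := by
    rw [map_mul, map_mul, map_mul, hz, hz', mul_one, mul_one, ← map_mul, mul_inv_cancel, map_one]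
  have h2 : ψ (g * z * g⁻¹ * z⁻¹) = 0 := hv _ (commutator_mem_cycSub N hN g z) hc
  have h3 : ψ (g * z * g⁻¹) = ψ z := by
    have : g * z * g⁻¹ = (g * z * g⁻¹ * z⁻¹) * z := by group
    rw [this, coc_mul hψ, h2, zero_add, adTw_triv h.det hc]
  rw [← h1, h3]

theorem eq_of_rbar_eq (hp2 : p ≠ 2) (h : RbarHyp p rbar) (N : ℕ) (hN : N ≠ 0) (ψ : GQ → sl2 k)
    (hψ : d12 (adTw p rbar) ψ = 0) (hv : ∀ σ ∈ cycSub N, rbar σ = 1 → ψ σ = 0) {σ τ : GQ}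
    (hστ : rbar σ = rbar τ) : ψ σ = ψ τ := by
  have hz : rbar (σ⁻¹ * τ) = 1 := by
    rw [map_mul, ← hστ, ← map_mul, inv_mul_cancel, map_one]
  have : τ = σ * (σ⁻¹ * τ) := by group
  rw [this, coc_mul hψ, vanish_ker hp2 h N hN ψ hψ hv hz, map_zero, add_zero]

theorem exists_det_eq (hdet : ∀ σ, (rbar σ).det = (chiK p k σ : k)) (a : ℕ) (ha : ¬ p ∣ a) :
    ∃ σ : GQ, (rbar σ).det = (a : k) := by
  have hu : IsUnit ((a : ℕ) : ZMod p) := by
    rw [isUnit_iff_ne_zero]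
    intro h0
    exact ha ((ZMod.natCast_eq_zero_iff a p).1 h0)
  obtain ⟨u, hu⟩ := hu
  obtain ⟨σ, hσ⟩ := CFT.Recip.cycloChar_surjective p u
  refine ⟨σ, ?_⟩
  rw [hdet]
  have h1 : cycloChar p σ = u := hσ
  show (ZMod.castHom (dvd_refl p) k) ((cycloChar p σ : (ZMod p)ˣ) : ZMod p) = (a : k)
  rw [h1, hu, map_natCast]

variable [Finite k]

/-- **[TW-A]** -/
theorem main (hp2 : p ≠ 2) (h : RbarHyp p rbar) (N : ℕ) (hN : N ≠ 0) (ψ : GQ → sl2 k)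
    (hψ : d12 (adTw p rbar) ψ = 0) (hv : ∀ σ ∈ cycSub N, rbar σ = 1 → ψ σ = 0) :
    ψ ∈ B1 (adTw p rbar) := by
  classical
  set R : GQ →* GL (Fin 2) k := rbar.toHomUnits with hR
  have hRc : ∀ σ, ((R σ : GL (Fin 2) k) : M2 k) = rbar σ := fun σ => rfl
  have hRi : ∀ σ, (((R σ)⁻¹ : GL (Fin 2) k) : M2 k) = rbar σ⁻¹ := fun σ => by
    rw [← map_inv]
    rfl
  set G : Subgroup (GL (Fin 2) k) := R.range with hG
  have hpre : ∀ g : G, ∃ σ, R σ = (g : GL (Fin 2) k) := fun g => g.2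
  choose s hs using hpre
  let f : G → Matrix (Fin 2) (Fin 2) k := fun g => (ψ (s g) : M2 k)
  let mkG : GQ → G := fun σ => ⟨R σ, σ, rfl⟩
  have hmk : ∀ g : G, ∃ σ, g = mkG σ := fun g => ⟨s g, Subtype.ext (hs g).symm⟩
  have hf : ∀ σ, f (mkG σ) = (ψ σ : M2 k) := by
    intro σ
    have h1 : rbar (s (mkG σ)) = rbar σ := by
      rw [← hRc, ← hRc, hs]
    show ((ψ (s (mkG σ)) : sl2 k) : M2 k) = _
    rw [eq_of_rbar_eq hp2 h N hN ψ hψ hv h1]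
  have htw : ∀ σ (w : sl2 k), V.tw (mkG σ : GL (Fin 2) k) (w : M2 k) =
      ((adTw p rbar σ w : sl2 k) : M2 k) := by
    intro σ w
    show V.tw (R σ) (w : M2 k) = _
    rw [adTw_coe, V.tw, hRc, hRi, h.det]
  have hcoc : V.IsCoc G f := by
    refine ⟨fun g => (ψ (s g)).2, fun g g' => ?_⟩
    obtain ⟨σ, rfl⟩ := hmk g
    obtain ⟨τ, rfl⟩ := hmk g'
    have e1 : mkG σ * mkG τ = mkG (σ * τ) := Subtype.ext (map_mul R σ τ).symm
    rw [e1, hf, hf, hf, htw, coc_mul hψ]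
    rfl
  have hsplit : V.Split G := by
    rintro _ ⟨σ, rfl⟩
    exact h.split σ
  have hline : V.NoLine G := by
    intro v hv0
    obtain ⟨σ, hσ⟩ := h.noLine v hv0
    exact ⟨R σ, ⟨σ, rfl⟩, hσ⟩
  have hdet : ∀ a : ℕ, ¬ p ∣ a → ∃ g ∈ G, (g : Matrix (Fin 2) (Fin 2) k).det = (a : k) := by
    intro a ha
    obtain ⟨σ, hσ⟩ := exists_det_eq h.det a ha
    exact ⟨R σ, ⟨σ, rfl⟩, hσ⟩
  obtain ⟨m, hm, hfm⟩ := V.isCob_of_isCoc hp2 G hsplit hline hdet f hcoc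
  refine ⟨⟨m, hm⟩, ?_⟩
  funext σ
  apply Subtype.ext
  have e2 := hfm (mkG σ)
  rw [hf] at e2
  rw [e2]
  show ((adTw p rbar σ ⟨m, hm⟩ : sl2 k) : M2 k) - m = _
  rw [← htw]

end Fermat.Agent.S56.TWA
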