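import Fermat.Agent.S56.TW.Sigma

/-!
# S56 / TW-D : proofs of `exists_functional_vanishing` and `exists_sigma` (statements in `TW/Key.lean`).

`exists_sigma_aux` takes [TW-A] for the given `ψ` as a hypothesis.
-/

set_option autoImplicit false

open ExtCitation Polynomial

namespace Fermat.Agent.S56

open CFT (B1 d12)

variable {k : Type} [Field k] {p : ℕ} [Fact p.Prime] [CharP k p] {rbar : GQ →* M2 k}

/-- `(σ₀ - 1) W'` is a proper subspace -/
theorem exists_functional_vanishing_aux (h2 : (2 : k) ≠ 0) (g : M2 k) (hg : IsUnit g) (α β : k)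
    (hαβ : α ≠ β) (hchar : g.charpoly = (X - C α) * (X - C β)) :
    ∃ h₀ : sl2 k, h₀ ≠ 0 ∧ ∀ w : M2 k, ((h₀ : M2 k) * (g * w * g⁻¹ - w)).trace = 0 := by
  obtain ⟨ht, hd⟩ := twc_tr_det hchar
  set c : k := g.trace / 2 with hc
  set m : M2 k := g - c • (1 : M2 k) with hm
  have hmtr : m.trace = 0 := by
    rw [hm, twc_trace_sub, hc]
    field_simp
    ring
  have hdet : IsUnit g.det := (Matrix.isUnit_iff_isUnit_det g).1 hg
  have hcomm : m * g = g * m := by
    rw [hm, sub_mul, mul_sub, Matrix.smul_mul, Matrix.mul_smul, Matrix.one_mul, Matrix.mul_one]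
  refine ⟨⟨m, (mem_sl2 m).2 hmtr⟩, ?_, fun w => ?_⟩
  · intro h0
    have h1 : m = 0 := congrArg Subtype.val h0
    have h3 : m.det = 0 := by rw [h1]; simp
    rw [hm, twc_det_sub, hc, ht, hd] at h3
    apply hαβ
    have h4 : (α - β) ^ 2 = 0 := by
      field_simp at h3
      linear_combination -h3
    exact sub_eq_zero.1 (pow_eq_zero_iff (two_ne_zero) |>.1 h4)
  · show (m * (g * w * g⁻¹ - w)).trace = 0
    rw [mul_sub, Matrix.trace_sub, sub_eq_zero, ← mul_assoc, Matrix.trace_mul_comm, ← mul_assoc m,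
      hcomm, mul_assoc g, ← mul_assoc g⁻¹, Matrix.nonsing_inv_mul g hdet, Matrix.one_mul]

theorem twd_inv_eq (σ : GQ) : (rbar σ)⁻¹ = rbar σ⁻¹ := by
  apply Matrix.inv_eq_right_inv
  rw [← map_mul, mul_inv_cancel, map_one]

theorem twd_isUnit (σ : GQ) : IsUnit (rbar σ) :=
  ⟨⟨rbar σ, rbar σ⁻¹, by rw [← map_mul, mul_inv_cancel, map_one],
    by rw [← map_mul, inv_mul_cancel, map_one]⟩, rfl⟩

theorem twd_adTw_coe (σ : GQ) (w : sl2 k) :
    ((adTw p rbar σ w : sl2 k) : M2 k) = (chiK p k σ : k) • (rbar σ * (w : M2 k) * rbar σ⁻¹) := rfl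

/-- elements of `ker rbar ∩ ker χ` act trivially on `W'` -/
theorem twd_adTw_eq_self {τ : GQ} (h1 : rbar τ = 1) (h2 : chiK p k τ = 1) (w : sl2 k) :
    adTw p rbar τ w = w := by
  apply Subtype.ext
  have h3 : rbar τ⁻¹ = 1 := by
    rw [← twd_inv_eq, h1, inv_one]
  rw [twd_adTw_coe, h1, h2, h3]
  simp

/-- **[TW-D]**, with [TW-A] as a hypothesis -/
theorem exists_sigma_aux (hp2 : p ≠ 2) (h : RbarHyp p rbar) (n : ℕ) (ψ : GQ → sl2 k)
    (hψ : d12 (adTw p rbar) ψ = 0) (hψB : ψ ∉ B1 (adTw p rbar))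
    (hA : (∀ σ ∈ cycSub (p ^ (n + 1)), rbar σ = 1 → ψ σ = 0) → ψ ∈ B1 (adTw p rbar)) :
    ∃ σ ∈ cycSub (p ^ (n + 1)), (∃ α β : k, α ≠ β ∧ (rbar σ).charpoly = (X - C α) * (X - C β)) ∧
      ∀ w : sl2 k, ψ σ ≠ adTw p rbar σ w - w := by
  have h2 : (2 : k) ≠ 0 := twc_two_ne_zero (p := p) hp2
  set H := cycSub (p ^ (n + 1)) with hH
  have hnorm : H.Normal := cycSub_normal _
  set ρ := adTw p rbar with hρ
  -- the cocycle relation
  have hc : ∀ a b : GQ, ψ (a * b) = ρ a (ψ b) + ψ a := by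
    intro a b
    have := congrFun hψ (a, b)
    simp only [CFT.d12, LinearMap.coe_mk, AddHom.coe_mk, Pi.zero_apply] at this
    rw [sub_add_eq_add_sub, sub_eq_zero] at this
    exact this.symm
  have hψ1 : ψ 1 = 0 := by
    have := hc 1 1
    rw [mul_one, map_one, Module.End.one_apply] at this
    simpa using this
  have htriv : ∀ τ ∈ H, rbar τ = 1 → ∀ w, ρ τ w = w := fun τ hτ h1 w =>
    twd_adTw_eq_self h1 (chiK_eq_one_of_mem_cycSub n hτ) w
  -- equivariance
  have hequiv : ∀ τ ∈ H, rbar τ = 1 → ∀ g : GQ, ψ (g * τ * g⁻¹) = ρ g (ψ τ) := by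
    intro τ hτ h1 g
    have e1 := hc g g⁻¹
    rw [mul_inv_cancel, hψ1] at e1
    rw [hc (g * τ) g⁻¹, hc g τ, map_mul, Module.End.mul_apply, htriv τ hτ h1]
    rw [add_comm, add_assoc, add_comm (ψ g), ← e1, add_zero]
  -- the span of `ψ (N)`
  set Y : Submodule k (sl2 k) := Submodule.span k {y | ∃ τ ∈ H, rbar τ = 1 ∧ ψ τ = y} with hY
  have hYstable : ∀ g, ∀ y ∈ Y, adRep rbar g y ∈ Y := by
    intro g y hy
    induction hy using Submodule.span_induction with
    | mem y hy =>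
      obtain ⟨τ, hτ, h1, rfl⟩ := hy
      have e1 := hequiv τ hτ h1 g
      have e2 : ρ g (ψ τ) = (chiK p k g : k) • adRep rbar g (ψ τ) := rfl
      have e3 : adRep rbar g (ψ τ) = ((chiK p k g)⁻¹ : kˣ).val • ψ (g * τ * g⁻¹) := by
        rw [e1, e2, smul_smul, Units.inv_mul, one_smul]
      rw [e3]
      refine Y.smul_mem _ (Submodule.subset_span ⟨_, hnorm.conj_mem τ hτ g, ?_, rfl⟩)
      rw [map_mul, map_mul, h1, mul_one, ← map_mul, mul_inv_cancel, map_one]
    | zero => rw [map_zero]; exact Y.zero_mem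
    | add x y _ _ hx hy => rw [map_add]; exact Y.add_mem hx hy
    | smul a x _ hx => rw [map_smul]; exact Y.smul_mem _ hx
  have hYtop : Y = ⊤ := by
    rcases adRep_irreducible hp2 h Y hYstable with hb | ht
    · exfalso
      apply hψB
      apply hA
      intro σ hσ h1
      have : ψ σ ∈ Y := Submodule.subset_span ⟨σ, hσ, h1, rfl⟩
      rw [hb, Submodule.mem_bot] at this
      exact this
    · exact ht
  obtain ⟨σ₀, hσ₀, α, β, hαβ, hchar⟩ := exists_distinct_eigen hp2 h n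
  obtain ⟨h₀, hh₀, hvan⟩ := exists_functional_vanishing_aux h2 (rbar σ₀) (twd_isUnit σ₀) α β hαβ hchar
  -- the functional
  have hlam : ∀ w : sl2 k, trP k h₀ (ρ σ₀ w - w) = 0 := by
    intro w
    have := hvan (w : M2 k)
    rw [trP_apply]
    rw [twd_inv_eq] at this
    have e : ((ρ σ₀ w - w : sl2 k) : M2 k) = rbar σ₀ * (w : M2 k) * rbar σ₀⁻¹ - (w : M2 k) := by
      rw [Submodule.coe_sub, hρ, twd_adTw_coe, chiK_eq_one_of_mem_cycSub n hσ₀, Units.val_one,
        one_smul]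
    rw [e]
    exact this
  obtain ⟨τ, hτ, hτ1, hτne⟩ : ∃ τ ∈ H, rbar τ = 1 ∧ trP k h₀ (ψ τ) ≠ 0 := by
    by_contra hcon
    push Not at hcon
    apply hh₀
    apply trP_left h2
    intro y
    have hy : y ∈ Y := by rw [hYtop]; trivial
    induction hy using Submodule.span_induction with
    | mem y hy =>
      obtain ⟨τ, hτ, h1, rfl⟩ := hy
      exact hcon τ hτ h1
    | zero => rw [map_zero]
    | add x y _ _ hx hy => rw [map_add, hx, hy, add_zero]
    | smul a x _ hx => rw [map_smul, hx, smul_zero]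
  by_cases h0 : trP k h₀ (ψ σ₀) = 0
  · refine ⟨τ * σ₀, H.mul_mem hτ hσ₀, ⟨α, β, hαβ, by rw [map_mul, hτ1, one_mul]; exact hchar⟩,
      fun w hw => ?_⟩
    have e1 : ψ (τ * σ₀) = ψ σ₀ + ψ τ := by rw [hc, htriv τ hτ hτ1]
    have e2 : ρ (τ * σ₀) w = ρ σ₀ w := by rw [map_mul, Module.End.mul_apply, htriv τ hτ hτ1]
    rw [e1, e2] at hw
    have := congrArg (trP k h₀) hw
    rw [map_add, h0, zero_add, hlam] at this
    exact hτne this
  · refine ⟨σ₀, hσ₀, ⟨α, β, hαβ, hchar⟩, fun w hw => ?_⟩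
    apply h0
    rw [hw, hlam]

end Fermat.Agent.S56
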