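import Fermat.Agent.S56.TW.Hyp
import Fermat.Agent.S56.Loc.Ur
import Fermat.Agent.Cheb.Final
import Fermat.Agent.Cheb.Cyclo

/-!
# S56 / TW-E : Chebotarev step of [TW-KEY]   (owner helper6)

`TWE.exists_tw_prime_of_sigma`: from `σ ∈ cycSub (p^(n+1))` with distinct eigenvalues and `ψ σ ∉ (σ - 1) W'` (conclusion of [TW-D])
to a Taylor-Wiles prime `q ∉ T`, `q ≡ 1 mod p^(n+1)`, `rbar (Frob_q)` with distinct eigenvalues, `res_q ψ ∉ B¹`.
See the header of `TW/Key.lean` for the paper proof.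
-/

set_option autoImplicit false

open ExtCitation Polynomial

namespace Fermat.Agent.S56

open CFT (levS levAll decomp Z1 B1 Qb d12 d01)

namespace TWE

section Coc

variable {k : Type} [CommRing k] {G : Type} [Group G] {V : Type} [AddCommGroup V] [Module k V]
  {ρ : Representation k G V} {ψ : G → V}

theorem coc_mul (hψ : d12 ρ ψ = 0) (a b : G) : ψ (a * b) = ψ a + ρ a (ψ b) := by
  have h := congrFun hψ (a, b)
  simp only [CFT.d12_apply, Pi.zero_apply] at h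
  have h2 : ψ (a * b) = ρ a (ψ b) + ψ a := by
    rw [← sub_eq_zero, ← neg_eq_zero, ← h]; abel
  rw [h2, add_comm]

theorem coc_one (hψ : d12 ρ ψ = 0) : ψ 1 = 0 := by
  have h := coc_mul hψ 1 1
  rw [mul_one, map_one, Module.End.one_apply] at h
  exact left_eq_add.1 h

theorem coc_inv (hψ : d12 ρ ψ = 0) (a : G) : ρ a (ψ a⁻¹) = - ψ a := by
  have h := coc_mul hψ a a⁻¹
  rw [mul_inv_cancel, coc_one hψ] at h
  exact (neg_eq_of_add_eq_zero_right h.symm).symm

/-- being a coboundary at `x` passes to powers. -/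
theorem cob_pow (hψ : d12 ρ ψ = 0) {x : G} {w : V} (h : ψ x = ρ x w - w) (a : ℕ) :
    ψ (x ^ a) = ρ (x ^ a) w - w := by
  induction a with
  | zero => simp [coc_one hψ]
  | succ a ih =>
    rw [pow_succ, coc_mul hψ, ih, h, map_mul, Module.End.mul_apply, map_sub]
    abel

/-- being a coboundary at `x` is invariant under conjugation. -/
theorem cob_conj (hψ : d12 ρ ψ = 0) {x : G} {w : V} (h : ψ x = ρ x w - w) (g : G) :
    ψ (g * x * g⁻¹) = ρ (g * x * g⁻¹) (ρ g w - ψ g) - (ρ g w - ψ g) := by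
  have h1 : ρ (g * x * g⁻¹) (ρ g w) = ρ g (ρ x w) := by
    rw [← Module.End.mul_apply, ← map_mul, inv_mul_cancel_right, map_mul, Module.End.mul_apply]
  have h2 : ρ (g * x) (ψ g⁻¹) = - ρ (g * x * g⁻¹) (ψ g) := by
    rw [← map_neg, ← coc_inv hψ g, ← Module.End.mul_apply, ← map_mul, inv_mul_cancel_right]
  rw [coc_mul hψ, coc_mul hψ, h, h2, map_sub, map_sub, h1]
  abel

end Coc

section Mat

variable {k : Type} [Field k]

/-- the discriminant of the characteristic polynomial. -/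
def disc (M : M2 k) : k := M.trace ^ 2 - 4 * M.det

theorem disc_of_charpoly {M : M2 k} {α β : k} (h : M.charpoly = (X - C α) * (X - C β)) :
    disc M = (α - β) ^ 2 := by
  rw [Matrix.charpoly_fin_two] at h
  have h0 := congrArg (fun P => P.coeff 0) h
  have h1 := congrArg (fun P => P.coeff 1) h
  have e : ((X - C α) * (X - C β) : k[X]) = X ^ 2 - C (α + β) * X + C (α * β) := by
    simp only [map_add, map_mul]; ring
  rw [e] at h0 h1
  simp [coeff_X, coeff_C] at h0 h1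
  have h1' : M.trace = α + β := by linear_combination -h1
  unfold disc
  rw [h0, h1']
  ring

theorem disc_lin (M : M2 k) (c d : k) : disc (c • (1 : M2 k) + d • M) = d ^ 2 * disc M := by
  unfold disc
  simp only [Matrix.trace_fin_two, Matrix.det_fin_two, Matrix.add_apply, Matrix.smul_apply,
    Matrix.one_apply_eq, smul_eq_mul, ne_eq, Fin.isValue, zero_ne_one, one_ne_zero,
    not_false_eq_true, Matrix.one_apply_ne]
  ring

theorem sq_eq (M : M2 k) : M * M = M.trace • M - M.det • (1 : M2 k) := by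
  ext i j
  fin_cases i <;> fin_cases j <;>
    simp [Matrix.mul_apply, Fin.sum_univ_two, Matrix.trace_fin_two, Matrix.det_fin_two] <;> ring

theorem exists_pow_eq (M : M2 k) (a : ℕ) : ∃ c d : k, M ^ a = c • (1 : M2 k) + d • M := by
  induction a with
  | zero => exact ⟨1, 0, by simp⟩
  | succ a ih =>
    obtain ⟨c, d, h⟩ := ih
    refine ⟨- d * M.det, c + d * M.trace, ?_⟩
    rw [pow_succ, h, add_mul, smul_mul_assoc, smul_mul_assoc, one_mul, sq_eq, smul_sub, smul_smul,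
      smul_smul, add_smul, neg_mul, neg_smul]
    abel

theorem disc_pow_eq_zero {M : M2 k} (h : disc M = 0) (a : ℕ) : disc (M ^ a) = 0 := by
  obtain ⟨c, d, e⟩ := exists_pow_eq M a
  rw [e, disc_lin, h, mul_zero]

end Mat

section Main

variable {k : Type} [Field k] {p : ℕ} [Fact p.Prime] [CharP k p] {rbar : GQ →* M2 k}

theorem adTw_eq_one (h : RbarHyp p rbar) {s : GQ} (hs : rbar s = 1) : adTw p rbar s = 1 := by
  have hχ : (chiK p k s : k) = 1 := by rw [← h.det, hs, Matrix.det_one]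
  have hs' : rbar s⁻¹ = 1 := by
    have := map_mul rbar s⁻¹ s
    rw [inv_mul_cancel, map_one, hs, mul_one] at this
    exact this.symm
  ext w : 2
  rw [adTw, Representation.twist_apply_apply, hχ, one_smul, adRep_apply_coe, hs, hs', one_mul,
    mul_one]
  rfl

theorem adTw_mul_right (h : RbarHyp p rbar) (g : GQ) {s : GQ} (hs : rbar s = 1) :
    adTw p rbar (g * s) = adTw p rbar g := by
  rw [map_mul, adTw_eq_one h hs, mul_one]

theorem charpoly_conj (g x : GQ) : (rbar (g * x * g⁻¹)).charpoly = (rbar x).charpoly := by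
  rw [map_mul, Matrix.charpoly_mul_comm, ← map_mul, inv_mul_cancel_left]

/-- **[TW-E]** from the conclusion of [TW-D]. -/
theorem exists_tw_prime_of_sigma (h : RbarHyp p rbar) (S₀ : Finset Nat.Primes) (n : ℕ)
    (ψ : GQ → sl2 k) (hψ : ψ ∈ Z1 (levS S₀) (adTw p rbar)) (T : Finset ℕ)
    (σ : GQ) (hσ : σ ∈ cycSub (p ^ (n + 1)))
    (hev : ∃ α β : k, α ≠ β ∧ (rbar σ).charpoly = (X - C α) * (X - C β))
    (hne : ∀ w : sl2 k, ψ σ ≠ adTw p rbar σ w - w) :
    ∃ q : Nat.Primes, (q : ℕ) ∉ T ∧ p ^ (n + 1) ∣ (q : ℕ) - 1 ∧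
      (∃ φ : GQ, (primeLocalPlace q).IsFrobeniusAt φ (q : ℕ) ∧ ∃ α β : k, α ≠ β ∧
        (rbar φ).charpoly = (X - C α) * (X - C β)) ∧
      resLoc k q ψ ∉ B1loc (adTw p rbar) q := by
  classical
  have hp : p.Prime := Fact.out
  have hcoc : d12 (adTw p rbar) ψ = 0 := hψ.1
  obtain ⟨U, ⟨F, hF, -, rfl⟩, hU⟩ := hψ.2
  have hFfd : FiniteDimensional ℚ F := hF.1
  obtain ⟨L₁, hL₁fd, hL₁⟩ := h.cont
  have hN0 : NeZero ((p ^ (n + 1) : ℕ) : Qb) := ⟨by exact_mod_cast (pow_pos hp.pos _).ne'⟩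
  obtain ⟨μ, hμ⟩ := HasEnoughRootsOfUnity.exists_primitiveRoot Qb (p ^ (n + 1))
  have hμint : IsIntegral ℚ μ := (AlgebraicClosure.isAlgebraic ℚ).isIntegral.isIntegral μ
  have hL₂fd : FiniteDimensional ℚ (IntermediateField.adjoin ℚ {μ}) :=
    IntermediateField.adjoin.finiteDimensional hμint
  have hfd1 : FiniteDimensional ℚ ↥(F ⊔ L₁) := IntermediateField.finiteDimensional_sup F L₁
  have hfd : FiniteDimensional ℚ ↥(F ⊔ L₁ ⊔ IntermediateField.adjoin ℚ {μ}) :=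
    IntermediateField.finiteDimensional_sup _ _
  obtain ⟨ℓ, A, τ, a, b, hℓ, hℓT, hA, hτ, -, hτa, hσb⟩ :=
    Cheb.preludeSpec (F ⊔ L₁ ⊔ IntermediateField.adjoin ℚ {μ}) hfd σ (insert p T)
  have hℓp : ℓ ≠ p := fun e => hℓT (e ▸ Finset.mem_insert_self _ _)
  have hℓT' : ℓ ∉ T := fun e => hℓT (Finset.mem_insert_of_mem e)
  have hFle : F ≤ F ⊔ L₁ ⊔ IntermediateField.adjoin ℚ {μ} := le_sup_left.trans le_sup_left
  have hL₁le : L₁ ≤ F ⊔ L₁ ⊔ IntermediateField.adjoin ℚ {μ} := le_sup_right.trans le_sup_left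
  have hμmem : μ ∈ F ⊔ L₁ ⊔ IntermediateField.adjoin ℚ {μ} :=
    (le_sup_right : IntermediateField.adjoin ℚ {μ} ≤ _)
      (IntermediateField.mem_adjoin_simple_self ℚ μ)
  -- `s := (τ^a)⁻¹ σ` and `s' := (σ^b)⁻¹ τ` are trivial on the big field
  have hs : ∀ x ∈ F ⊔ L₁ ⊔ IntermediateField.adjoin ℚ {μ}, ((τ ^ a)⁻¹ * σ) x = x := by
    intro x hx
    rw [AlgEquiv.mul_apply, ← hτa x hx]
    exact (τ ^ a).symm_apply_apply x
  have hs' : ∀ x ∈ F ⊔ L₁ ⊔ IntermediateField.adjoin ℚ {μ}, ((σ ^ b)⁻¹ * τ) x = x := by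
    intro x hx
    rw [AlgEquiv.mul_apply, ← hσb x hx]
    exact (σ ^ b).symm_apply_apply x
  have hrs : rbar ((τ ^ a)⁻¹ * σ) = 1 := hL₁ _ fun x hx => hs x (hL₁le hx)
  have hσeq : σ = τ ^ a * ((τ ^ a)⁻¹ * σ) := by group
  have hrσ : rbar σ = rbar τ ^ a := by
    conv_lhs => rw [hσeq, map_mul, hrs, mul_one, map_pow]
  -- (1) `p^(n+1) ∣ ℓ - 1`
  have hdvd : p ^ (n + 1) ∣ ℓ - 1 := by
    have h1 : τ μ = μ ^ ℓ := Cheb.apply_rootOfUnity_of_isFrobeniusAt hℓ hA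
      (fun hd => hℓp ((Nat.prime_dvd_prime_iff_eq hℓ hp).1 (hℓ.dvd_of_dvd_pow hd))) hτ hμ.pow_eq_one
    have h2 : τ μ = μ := by
      rw [← hσb μ hμmem]
      exact (cycSub (p ^ (n + 1))).pow_mem hσ b μ hμ.pow_eq_one
    have h3 : μ ^ (ℓ - 1) = 1 := by
      have h4 : μ ^ (ℓ - 1) * μ = 1 * μ := by
        rw [← pow_succ, Nat.sub_add_cancel hℓ.one_lt.le, ← h1, h2, one_mul]
      exact mul_right_cancel₀ (hμ.ne_zero (pow_pos hp.pos _).ne') h4
    exact (hμ.pow_eq_one_iff_dvd _).1 h3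
  -- (2) distinct eigenvalues of `rbar τ`
  obtain ⟨α, β, hαβ, hchar⟩ := hev
  obtain ⟨α', β', hchar'⟩ := h.split τ
  have hαβ' : α' ≠ β' := by
    rintro rfl
    have h1 : disc (rbar τ) = 0 := by rw [disc_of_charpoly hchar']; ring
    have h2 := disc_pow_eq_zero h1 a
    rw [← hrσ, disc_of_charpoly hchar] at h2
    exact hαβ (sub_eq_zero.1 (pow_eq_zero_iff two_ne_zero |>.1 h2))
  -- (3) `ψ τ ∉ (τ - 1) W'`
  have hτne : ∀ w : sl2 k, ψ τ ≠ adTw p rbar τ w - w := by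
    intro w hw
    have h1 := cob_pow hcoc hw a
    apply hne w
    have h2 : ψ σ = ψ (τ ^ a) := by
      conv_lhs => rw [hσeq]
      exact hU _ _ ((IntermediateField.mem_fixingSubgroup_iff F _).2 fun x hx => hs x (hFle hx))
    have h3 : adTw p rbar σ = adTw p rbar (τ ^ a) := by
      conv_lhs => rw [hσeq]
      exact adTw_mul_right h _ hrs
    rw [h2, h3, h1]
  -- (4) conjugate to the distinguished place
  obtain ⟨g, hg⟩ := Bridge.exists_smul_eq hℓ hA (liesOverPrime_primeLocalPlace ⟨ℓ, hℓ⟩)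
  have hφ : (primeLocalPlace (⟨ℓ, hℓ⟩ : Nat.Primes)).IsFrobeniusAt (g * τ * g⁻¹) ℓ := by
    rw [← hg, Bridge.isFrobeniusAt_smul_iff hℓ hA]
    have : g⁻¹ * (g * τ * g⁻¹) * g = τ := by group
    rwa [this]
  refine ⟨⟨ℓ, hℓ⟩, hℓT', hdvd, ⟨g * τ * g⁻¹, hφ, α', β', hαβ', ?_⟩, ?_⟩
  · rw [charpoly_conj, hchar']
  · rintro ⟨w, hw⟩
    have h1 := congrFun hw ⟨g * τ * g⁻¹, hφ.mem_decompositionSubgroup⟩
    have h2 : ψ (g * τ * g⁻¹) = adTw p rbar (g * τ * g⁻¹) w - w := h1.symm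
    have h3 := cob_conj hcoc h2 g⁻¹
    have h4 : g⁻¹ * (g * τ * g⁻¹) * g⁻¹⁻¹ = τ := by group
    rw [h4] at h3
    exact hτne _ h3

end Main

end TWE

end Fermat.Agent.S56
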