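import Fermat.Agent.S56.TW.Sigma
import Fermat.Agent.S56.TW.A
import Fermat.Agent.S56.TW.D
import Fermat.Agent.S56.TW.E
import Fermat.Agent.S56.V.Main
import Fermat.Agent.S56.Loc.Min
import Fermat.Agent.Cheb.Final
import Fermat.Agent.Cheb.Cyclo

/-!
# S56 / TW-KEY : for every class `0 ≠ [ψ] ∈ H¹(G_{S₀}, W')` there are Taylor-Wiles primes `q` with `res_q ψ ≠ 0`.

`W' = adTw p rbar` (`σ • m = χ(σ) rbar σ m rbar σ⁻¹`, `χ = det rbar`), `H_N = cycSub N`, `N₀ = ker rbar ≤ ker χ`.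

[TW-A] `ψ` a cocycle vanishing on `N₀ ∩ H_N` ⟹ `ψ ∈ B¹`.
  (1) `ψ|_{N₀}` is a homomorphism (trivial action) and `ψ (g z g⁻¹) = g • ψ z` for `z ∈ N₀` [`ψ(g z g⁻¹) = ψ g + g ψ z + g z ψ(g⁻¹)`, `z` acts trivially, `ψ g + g ψ(g⁻¹) = ψ 1 = 0`].
  (2) `g z g⁻¹ z⁻¹ ∈ N₀ ∩ H_N` (`commutator_mem_cycSub`), so `ψ (g z g⁻¹) = ψ z`; so `ψ z ∈ W'^G = 0` (`adTw_invariants`).  So `ψ = 0` on `N₀`.
  (3) `ψ` factors through `G := range (rbar) ≤ GL₂(k)`: `f (rbar σ) := ψ σ` is `V.IsCoc G f`; (V) = `V.isCob_of_isCoc` [`Split` from `split`, `NoLine` from `noLine`, `hdet` from `det` + `CFT.cycloChar_surjective p`] gives `m`, `ψ = ∂ m`.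
[TW-D] `ψ ∉ B¹` ⟹ there is `σ ∈ H := H_{p^(n+1)}` with distinct eigenvalues and `ψ σ ∉ (σ - 1) W'`.
  `N := N₀ ∩ H`.  By [TW-A] `ψ|_N ≠ 0`.  `ψ|_N` is an equivariant homomorphism, so the `k`-span `Y` of `ψ (N)` is a nonzero `G`-stable subspace (for `adTw`, equivalently for `adRep`): `Y = W'` (`adRep_irreducible`).
  `σ₀` from `exists_distinct_eigen`; `χ σ₀ = 1`; `(σ₀ - 1) W'` is a PROPER subspace (`h₀ ≠ 0` commuting with `rbar σ₀`: `tr (h₀ (σ₀ w - w)) = 0` for all `w`, and the trace form is non degenerate).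
  So there is `τ ∈ N` with `ψ τ ∉ (σ₀ - 1) W'`.  `ψ (τ σ₀) = ψ τ + ψ σ₀`, `rbar (τ σ₀) = rbar σ₀`: one of `σ₀`, `τ σ₀` works.
[TW-E] Chebotarev (`Cheb.preludeSpec`).  `L` finite with: `σ|_L = 1 ⟹ rbar σ = 1`, `ψ (g σ) = ψ g`, `σ ∈ H`.  Get `ℓ ∉ T`, `A | ℓ`, `τ` Frobenius at `A`, `τ^a = σ`, `σ^b = τ` on `L`.
  * `τ ∈ H` and `τ μ = μ^ℓ` (`Cheb.apply_rootOfUnity_of_isFrobeniusAt`), `μ` primitive: `p^(n+1) ∣ ℓ - 1`.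
  * `rbar τ = (rbar σ)^b ~ diag(α^b, β^b)`; `α^b ≠ β^b` since `rbar σ = (rbar τ)^a`.
  * `ψ τ = (τ - 1) w` ⟹ `ψ (τ^a) = (τ^a - 1) w` ⟹ `ψ σ = (σ - 1) w`: contradiction.
  * `g • A = primeLocalPlace ℓ` (`Bridge.exists_smul_eq`), `φ := g τ g⁻¹` is a Frobenius there (`Bridge.isFrobeniusAt_smul_iff`); `ψ φ = g ψ τ - (φ - 1) ψ g`; so `ψ φ ∉ (φ - 1) W'`, so `res ψ ∉ B1loc`.
-/

set_option autoImplicit false

open ExtCitation Polynomial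

namespace Fermat.Agent.S56

open CFT (levS levAll decomp Z1 B1 Qb d12)

variable {k : Type} [Field k] [Finite k] {p : ℕ} [Fact p.Prime] [CharP k p] {rbar : GQ →* M2 k}

/-- **[TW-A]** -/
theorem mem_B1_of_vanish (hp2 : p ≠ 2) (h : RbarHyp p rbar) (N : ℕ) (hN : N ≠ 0) (ψ : GQ → sl2 k)
    (hψ : d12 (adTw p rbar) ψ = 0) (hv : ∀ σ ∈ cycSub N, rbar σ = 1 → ψ σ = 0) :
    ψ ∈ B1 (adTw p rbar) :=
  TWA.main hp2 h N hN ψ hψ hv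

/-- `(σ₀ - 1) W'` is a proper subspace -/
theorem exists_functional_vanishing (h2 : (2 : k) ≠ 0) (g : M2 k) (hg : IsUnit g) (α β : k) (hαβ : α ≠ β)
    (hchar : g.charpoly = (X - C α) * (X - C β)) :
    ∃ h₀ : sl2 k, h₀ ≠ 0 ∧ ∀ w : M2 k, ((h₀ : M2 k) * (g * w * g⁻¹ - w)).trace = 0 :=
  exists_functional_vanishing_aux h2 g hg α β hαβ hchar

/-- **[TW-D]** -/
theorem exists_sigma (hp2 : p ≠ 2) (h : RbarHyp p rbar) (n : ℕ) (ψ : GQ → sl2 k)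
    (hψ : d12 (adTw p rbar) ψ = 0) (hψB : ψ ∉ B1 (adTw p rbar)) :
    ∃ σ ∈ cycSub (p ^ (n + 1)), (∃ α β : k, α ≠ β ∧ (rbar σ).charpoly = (X - C α) * (X - C β)) ∧
      ∀ w : sl2 k, ψ σ ≠ adTw p rbar σ w - w :=
  exists_sigma_aux hp2 h n ψ hψ hψB
    (mem_B1_of_vanish hp2 h (p ^ (n + 1)) (pow_ne_zero _ (Fact.out : p.Prime).ne_zero) ψ hψ)

/-- **[TW-E] = [TW-KEY]** -/
theorem exists_tw_prime (hp2 : p ≠ 2) (h : RbarHyp p rbar) (S₀ : Finset Nat.Primes) (n : ℕ)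
    (ψ : GQ → sl2 k) (hψ : ψ ∈ Z1 (levS S₀) (adTw p rbar)) (hψB : ψ ∉ B1 (adTw p rbar))
    (T : Finset ℕ) :
    ∃ q : Nat.Primes, (q : ℕ) ∉ T ∧ p ^ (n + 1) ∣ (q : ℕ) - 1 ∧
      (∃ φ : GQ, (primeLocalPlace q).IsFrobeniusAt φ (q : ℕ) ∧ ∃ α β : k, α ≠ β ∧
        (rbar φ).charpoly = (X - C α) * (X - C β)) ∧
      resLoc k q ψ ∉ B1loc (adTw p rbar) q := by
  obtain ⟨σ, hσ, hev, hne⟩ := exists_sigma hp2 h n ψ hψ.1 hψB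
  exact TWE.exists_tw_prime_of_sigma h S₀ n ψ hψ T σ hσ hev hne

end Fermat.Agent.S56
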