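import Fermat.Agent.S56.TW.Hyp
import Fermat.Agent.CFT.Recip.Surj

/-!
# S56 / TW-C : an element of `Gal(ℚbar/ℚ(μ_{p^(n+1)}))` with distinct eigenvalues.   (elementary; NO Clifford theory, NO Dickson)

`H = cycSub (p^(n+1)) ◁ GQ`, `GQ/H ↪ (ℤ/p^(n+1))ˣ` is cyclic (`p` odd): there is `g₀` with `GQ = ⋃_j g₀^j H`   [`GAL.cycloChar (p^(n+1))`, kernel `= H`; `(ZMod (p^(n+1)))ˣ` cyclic; subgroups of cyclic groups are cyclic].
Suppose every `rbar h`, `h ∈ H`, has a double eigenvalue (`charpoly = (X - α)²`; by `split` this is the negation of the claim).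
 (a) all `rbar h` scalar: then every `rbar g = (scalar) * (rbar g₀)^j`, an eigenvector of `rbar g₀` (exists by `split`) spans a stable line: contradiction with `noLine`.
 (b) some `rbar h₁ = α₁ u₁` is not scalar; `ℓ₁ := ker (rbar h₁ - α₁)` is a line; choose a basis with `u₁ = (1 1; 0 1)`.  For `h₂ ∈ H`, `rbar h₂ = (a b; c d)`:
     `u₁^j (a b; c d)` has trace `a + d + j c` and determinant `a d - b c`; `h₁^j h₂ ∈ H` has a double eigenvalue: `(t + j c)² = 4 det` for `j = 0, 1, 2` (`t = a + d`; scale by `α₁^j`):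
     `2 t c + c² = 0`, `4 t c + 4 c² = 0`, so `2 c² = 0`, `c = 0`.  So `rbar (H)` fixes `ℓ₁`, and `ℓ₁` is the ONLY line fixed by `rbar h₁`.
     For `g ∈ GQ`: `g h₁ g⁻¹ ∈ H` fixes `ℓ₁`, and its only fixed line is `g ℓ₁`.  So `g ℓ₁ = ℓ₁`: contradiction with `noLine`.
-/

set_option autoImplicit false

open ExtCitation Polynomial

namespace Fermat.Agent.S56

open CFT (Qb)

variable {k : Type} [Field k] {p : ℕ} [Fact p.Prime] [CharP k p] {rbar : GQ →* M2 k}

theorem mem_cycSub_iff (N : ℕ) [NeZero N] (σ : GQ) :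
    σ ∈ cycSub N ↔ Fermat.Agent.GAL.cycloChar N σ = 1 := by
  constructor
  · intro h
    obtain ⟨ζ, hζ⟩ := Fermat.Agent.GAL.exists_primitiveRoot_Zbar N
    have h1 : σ (ζ : Qb) = (ζ : Qb) ^ 1 := by rw [pow_one]; exact h _ hζ.pow_eq_one
    have h2 := Fermat.Agent.GAL.cycloChar_eq_of_primitiveRoot N σ hζ h1
    exact Units.ext (by simpa using h2)
  · intro h μ hμ
    have h1 := Fermat.Agent.GAL.cycloChar_spec N σ hμ
    rw [h, Units.val_one, ZMod.val_one_eq_one_mod, ← pow_eq_pow_mod 1 hμ, pow_one] at h1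
    exact h1

theorem cycSub_normal (N : ℕ) : (cycSub N).Normal := by
  refine ⟨fun σ hσ g μ hμ => ?_⟩
  have h1 : (g⁻¹ μ) ^ N = 1 := by rw [← map_pow, hμ, map_one]
  rw [AlgEquiv.mul_apply, AlgEquiv.mul_apply, hσ _ h1, ← AlgEquiv.mul_apply, mul_inv_cancel,
    AlgEquiv.one_apply]

theorem exists_generator_mod_cycSub (hp2 : p ≠ 2) (n : ℕ) :
    ∃ g₀ : GQ, ∀ g : GQ, ∃ j : ℕ, g * (g₀ ^ j)⁻¹ ∈ cycSub (p ^ (n + 1)) := by
  have hp : p.Prime := Fact.out
  have : NeZero (p ^ (n + 1)) := ⟨pow_ne_zero _ hp.ne_zero⟩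
  have : IsCyclic (ZMod (p ^ (n + 1)))ˣ := ZMod.isCyclic_units_of_prime_pow p hp hp2 (n + 1)
  obtain ⟨u, hu⟩ := IsCyclic.exists_generator (α := (ZMod (p ^ (n + 1)))ˣ)
  obtain ⟨g₀, hg₀⟩ := CFT.Recip.cycloChar_surjective (p ^ (n + 1)) u
  refine ⟨g₀, fun g => ?_⟩
  have h1 := hu (Fermat.Agent.GAL.cycloChar (p ^ (n + 1)) g)
  rw [← (isOfFinOrder_of_finite u).mem_powers_iff_mem_zpowers] at h1
  obtain ⟨j, hj⟩ := h1
  refine ⟨j, ?_⟩
  rw [mem_cycSub_iff, map_mul, map_inv, map_pow, hg₀]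
  simp only at hj
  rw [hj, mul_inv_cancel]

theorem commutator_mem_cycSub (N : ℕ) (hN : N ≠ 0) (g h : GQ) : g * h * g⁻¹ * h⁻¹ ∈ cycSub N := by
  have : NeZero N := ⟨hN⟩
  rw [mem_cycSub_iff, map_mul, map_mul, map_mul, map_inv, map_inv]
  have key : ∀ a b : (ZMod N)ˣ, a * b * a⁻¹ * b⁻¹ = 1 := fun a b => by
    rw [mul_comm a b, mul_inv_cancel_right, mul_inv_cancel]
  exact key _ _

theorem chiK_eq_one_of_mem_cycSub (n : ℕ) {σ : GQ} (hσ : σ ∈ cycSub (p ^ (n + 1))) :
    chiK p k σ = 1 := by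
  have hp : p.Prime := Fact.out
  have : NeZero p := ⟨hp.ne_zero⟩
  have h1 : σ ∈ cycSub p := by
    intro μ hμ
    exact hσ μ (by rw [pow_succ', pow_mul, hμ, one_pow])
  have h2 : cycloChar p σ = 1 := by
    rw [CFT.cycloChar_eq_gal]
    exact (mem_cycSub_iff p σ).1 h1
  rw [chiK, MonoidHom.comp_apply, h2, map_one]

/-- the matrix computation of (b) -/
theorem lower_left_eq_zero (h2 : (2 : k) ≠ 0) (a b c d : k)
    (h : ∀ j : ℕ, (a + d + j * c) ^ 2 = 4 * (a * d - b * c)) : c = 0 := by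
  have h0 := h 0
  have h1 := h 1
  have h2' := h 2
  push_cast at h0 h1 h2'
  have e : 2 * c ^ 2 = 0 := by linear_combination h2' - 2 * h1 + h0
  have : c ^ 2 = 0 := (mul_eq_zero.1 e).resolve_left h2
  exact pow_eq_zero_iff (two_ne_zero) |>.1 this

/-! ### `2 × 2` matrix lemmas -/

theorem twc_tr_det {g : M2 k} {α β : k} (h : g.charpoly = (X - C α) * (X - C β)) :
    g.trace = α + β ∧ g.det = α * β := by
  rw [Matrix.charpoly_fin_two] at h
  have h0 := congrArg (Polynomial.eval 0) h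
  have h1 := congrArg (Polynomial.eval 1) h
  simp at h0 h1
  refine ⟨?_, h0⟩
  linear_combination h0 - h1

theorem twc_det_sub (g : M2 k) (α : k) :
    (g - α • (1 : M2 k)).det = g.det - α * g.trace + α ^ 2 := by
  simp [Matrix.det_fin_two, Matrix.trace_fin_two]
  ring

theorem twc_trace_sub (g : M2 k) (α : k) :
    (g - α • (1 : M2 k)).trace = g.trace - 2 * α := by
  simp [Matrix.trace_fin_two]
  ring

theorem twc_exists_eigen {g : M2 k} {α β : k} (h : g.charpoly = (X - C α) * (X - C β)) :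
    ∃ v : Fin 2 → k, v ≠ 0 ∧ g.mulVec v = α • v := by
  obtain ⟨ht, hd⟩ := twc_tr_det h
  have h0 : (g - α • (1 : M2 k)).det = 0 := by
    rw [twc_det_sub, ht, hd]; ring
  obtain ⟨v, hv, hv0⟩ := Matrix.exists_mulVec_eq_zero_iff.2 h0
  refine ⟨v, hv, ?_⟩
  rw [Matrix.sub_mulVec, Matrix.smul_mulVec, Matrix.one_mulVec, sub_eq_zero] at hv0
  exact hv0

/-- `m A m = tr (m A) m - det m adj A` applied to a vector, for `det m = 0`, `tr (m A) = 0` -/
theorem twc_mAm (m A : M2 k) (hd : m.det = 0) (ht : (m * A).trace = 0) : m * A * m = 0 := by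
  rw [Matrix.det_fin_two] at hd
  rw [Matrix.trace_fin_two, Matrix.mul_apply, Matrix.mul_apply, Fin.sum_univ_two,
    Fin.sum_univ_two] at ht
  ext i j
  fin_cases i <;> fin_cases j <;>
    simp only [Matrix.mul_apply, Fin.sum_univ_two, Fin.zero_eta, Fin.mk_one, Matrix.zero_apply,
      Fin.isValue]
  · linear_combination (m 0 0) * ht - (A 1 1) * hd
  · linear_combination (m 0 1) * ht + (A 0 1) * hd
  · linear_combination (m 1 0) * ht + (A 1 0) * hd
  · linear_combination (m 1 1) * ht - (A 0 0) * hd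

theorem twc_sq_zero (m : M2 k) (hd : m.det = 0) (ht : m.trace = 0) : m * m = 0 := by
  rw [Matrix.det_fin_two] at hd
  rw [Matrix.trace_fin_two] at ht
  ext i j
  fin_cases i <;> fin_cases j <;>
    simp only [Matrix.mul_apply, Fin.sum_univ_two, Fin.zero_eta, Fin.mk_one, Matrix.zero_apply,
      Fin.isValue]
  · linear_combination (m 0 0) * ht - hd
  · linear_combination (m 0 1) * ht
  · linear_combination (m 1 0) * ht
  · linear_combination (m 1 1) * ht - hd

/-- the kernel of a trace zero matrix `m` is spanned by any nonzero `m e` -/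
theorem twc_ker (m : M2 k) (ht : m.trace = 0) (e w : Fin 2 → k) (he : m.mulVec e ≠ 0)
    (hw : m.mulVec w = 0) : ∃ t : k, w = t • m.mulVec e := by
  rw [Matrix.trace_fin_two] at ht
  have hw0 := congrFun hw 0
  have hw1 := congrFun hw 1
  simp only [Matrix.mulVec, dotProduct, Fin.sum_univ_two, Pi.zero_apply] at hw0 hw1
  set v := m.mulVec e with hv
  have hv0 : v 0 = m 0 0 * e 0 + m 0 1 * e 1 := by
    simp [hv]
  have hv1 : v 1 = m 1 0 * e 0 + m 1 1 * e 1 := by
    simp [hv]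
  have hcross : w 0 * v 1 - w 1 * v 0 = 0 := by
    rw [hv0, hv1]
    linear_combination (e 0) * hw1 - (e 1) * hw0 + (e 1 * w 0 - e 0 * w 1) * ht
  by_cases h0 : v 0 = 0
  · have h1 : v 1 ≠ 0 := by
      intro h1
      apply he
      ext i; fin_cases i
      · exact h0
      · exact h1
    refine ⟨w 1 / v 1, ?_⟩
    ext i; fin_cases i
    · simp only [Fin.zero_eta, Fin.isValue, Pi.smul_apply, smul_eq_mul, h0, mul_zero]
      rw [h0, mul_zero, sub_zero] at hcross
      exact (mul_eq_zero.1 hcross).resolve_right h1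
    · simp only [Fin.mk_one, Fin.isValue, Pi.smul_apply, smul_eq_mul]
      field_simp
  · refine ⟨w 0 / v 0, ?_⟩
    ext i; fin_cases i
    · simp only [Fin.zero_eta, Fin.isValue, Pi.smul_apply, smul_eq_mul]
      field_simp
    · simp only [Fin.mk_one, Fin.isValue, Pi.smul_apply, smul_eq_mul]
      field_simp
      linear_combination -hcross

/-- Cayley-Hamilton consequence: `tr (u u A) = tr u tr (u A) - det u tr A` -/
theorem twc_trace_sq (u A : M2 k) :
    (u * u * A).trace = u.trace * (u * A).trace - u.det * A.trace := by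
  simp only [Matrix.trace_fin_two, Matrix.det_fin_two, Matrix.mul_apply, Fin.sum_univ_two]
  ring

theorem twc_scalar_eq (h2 : (2 : k) ≠ 0) {α t s D : k} (hα : α ≠ 0) (h0 : t ^ 2 = 4 * D)
    (h1 : (α * t + s) ^ 2 = 4 * (α ^ 2 * D))
    (h2' : (α ^ 2 * t + 2 * α * s) ^ 2 = 4 * (α ^ 2 * α ^ 2 * D)) : s = 0 := by
  have e : 2 * α ^ 2 * s ^ 2 = 0 := by
    linear_combination h2' - 2 * α ^ 2 * h1 + α ^ 4 * h0
  have : s ^ 2 = 0 := (mul_eq_zero.1 e).resolve_left (mul_ne_zero h2 (pow_ne_zero _ hα))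
  exact pow_eq_zero_iff (two_ne_zero) |>.1 this

theorem twc_two_ne_zero (hp2 : p ≠ 2) : (2 : k) ≠ 0 := by
  have hp : p.Prime := Fact.out
  intro h
  have h1 : ((2 : ℕ) : k) = 0 := by exact_mod_cast h
  rw [CharP.cast_eq_zero_iff k p 2] at h1
  exact hp2 ((Nat.prime_dvd_prime_iff_eq hp Nat.prime_two).1 h1)

/-- **[TW-C]** -/
theorem exists_distinct_eigen (hp2 : p ≠ 2) (h : RbarHyp p rbar) (n : ℕ) :
    ∃ σ₀ ∈ cycSub (p ^ (n + 1)), ∃ α β : k, α ≠ β ∧
      (rbar σ₀).charpoly = (X - C α) * (X - C β) := by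
  by_contra hcon
  push Not at hcon
  set H := cycSub (p ^ (n + 1)) with hH
  have h2 : (2 : k) ≠ 0 := twc_two_ne_zero (p := p) hp2
  have hdbl : ∀ σ ∈ H, ∃ γ : k, (rbar σ).charpoly = (X - C γ) * (X - C γ) := by
    intro σ hσ
    obtain ⟨α, β, hαβ⟩ := h.split σ
    by_cases e : α = β
    · subst e; exact ⟨α, hαβ⟩
    · exact absurd hαβ (hcon σ hσ α β e)
  have hnorm := cycSub_normal (p ^ (n + 1))
  suffices hline : ∃ v : Fin 2 → k, v ≠ 0 ∧ ∀ σ, ∃ c : k, (rbar σ).mulVec v = c • v by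
    obtain ⟨v, hv, hst⟩ := hline
    obtain ⟨σ, hσ⟩ := h.noLine v hv
    obtain ⟨c, hc⟩ := hst σ
    exact hσ c hc
  by_cases hsc : ∀ σ ∈ H, ∀ γ : k, (rbar σ).charpoly = (X - C γ) * (X - C γ) →
      rbar σ = γ • (1 : M2 k)
  · -- case (a)
    obtain ⟨g₀, hg₀⟩ := exists_generator_mod_cycSub (p := p) hp2 n
    obtain ⟨α, β, hαβ⟩ := h.split g₀
    obtain ⟨v, hv, hev⟩ := twc_exists_eigen hαβ
    refine ⟨v, hv, fun σ => ?_⟩
    obtain ⟨j, hj⟩ := hg₀ σ
    obtain ⟨γ, hγ⟩ := hdbl _ hj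
    have h1 := hsc _ hj γ hγ
    have h3 : rbar σ = rbar (σ * (g₀ ^ j)⁻¹) * (rbar g₀) ^ j := by
      rw [← map_pow, ← map_mul, inv_mul_cancel_right]
    have h4 : ∀ j : ℕ, ((rbar g₀) ^ j).mulVec v = α ^ j • v := by
      intro j
      induction j with
      | zero => simp
      | succ j ih =>
        rw [pow_succ, ← Matrix.mulVec_mulVec, hev, Matrix.mulVec_smul, ih, smul_smul, pow_succ,
          mul_comm]
    refine ⟨γ * α ^ j, ?_⟩
    rw [h3, h1, ← Matrix.mulVec_mulVec, h4, Matrix.smul_mulVec, Matrix.one_mulVec, smul_smul]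
  · -- case (b)
    push Not at hsc
    obtain ⟨h₁, hh₁, α₁, hchar, hns⟩ := hsc
    set u := rbar h₁ with hu
    set m : M2 k := u - α₁ • (1 : M2 k) with hm
    obtain ⟨htr, hdet⟩ := twc_tr_det hchar
    have hmtr : m.trace = 0 := by rw [hm, twc_trace_sub, htr]; ring
    have hmdet : m.det = 0 := by rw [hm, twc_det_sub, htr, hdet]; ring
    have hm0 : m ≠ 0 := by
      intro e
      exact hns (sub_eq_zero.1 e)
    obtain ⟨e, he⟩ : ∃ e, m.mulVec e ≠ 0 := by
      by_contra hc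
      push Not at hc
      apply hm0
      apply Matrix.mulVec_injective
      ext1 e
      rw [hc e, Matrix.zero_mulVec]
    have hα₁ : α₁ ≠ 0 := by
      intro e0
      have h9 : u.det * (rbar h₁⁻¹).det = 1 := by
        rw [← Matrix.det_mul, hu, ← map_mul, mul_inv_cancel, map_one, Matrix.det_one]
      rw [hdet, e0] at h9
      simp at h9
    set v := m.mulVec e with hv
    have hHline : ∀ σ ∈ H, ∃ c : k, (rbar σ).mulVec v = c • v := by
      intro σ hσ
      set A := rbar σ with hA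
      have hs : (m * A).trace = 0 := by
        obtain ⟨γ0, hγ0⟩ := hdbl σ hσ
        obtain ⟨γ1, hγ1⟩ := hdbl (h₁ * σ) (H.mul_mem hh₁ hσ)
        obtain ⟨γ2, hγ2⟩ := hdbl (h₁ * h₁ * σ) (H.mul_mem (H.mul_mem hh₁ hh₁) hσ)
        obtain ⟨t0, d0⟩ := twc_tr_det hγ0
        obtain ⟨t1, d1⟩ := twc_tr_det hγ1
        obtain ⟨t2, d2⟩ := twc_tr_det hγ2
        rw [map_mul] at t1 d1
        rw [map_mul, map_mul] at t2 d2
        rw [Matrix.det_mul, hdet] at d1
        rw [Matrix.det_mul, Matrix.det_mul, hdet] at d2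
        rw [twc_trace_sq, htr, hdet] at t2
        have e1 : (m * A).trace = (u * A).trace - α₁ * A.trace := by
          rw [hm, sub_mul, Matrix.trace_sub, Matrix.smul_mul, Matrix.one_mul, Matrix.trace_smul,
            smul_eq_mul]
        apply twc_scalar_eq h2 hα₁ (t := A.trace) (D := A.det)
        · rw [t0, d0]; ring
        · rw [e1]
          linear_combination (u * A).trace * t1 + (γ1 + γ1) * t1 - 4 * d1
        · rw [e1]
          linear_combination ((α₁ + α₁) * (u * A).trace - α₁ * α₁ * A.trace) * t2 +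
            (γ2 + γ2) * t2 - 4 * d2
      have h3 : m.mulVec (A.mulVec v) = 0 := by
        rw [hv, Matrix.mulVec_mulVec, Matrix.mulVec_mulVec, twc_mAm m A hmdet hs,
          Matrix.zero_mulVec]
      exact twc_ker m hmtr e _ he h3
    refine ⟨v, he, fun g => ?_⟩
    have hc := hnorm.conj_mem h₁ hh₁ g⁻¹
    obtain ⟨c, hc'⟩ := hHline _ hc
    set B := rbar g with hB
    have h5 : u.mulVec (B.mulVec v) = c • B.mulVec v := by
      have h8 : B * rbar (g⁻¹ * h₁ * g⁻¹⁻¹) = u * B := by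
        rw [hB, hu, ← map_mul, ← map_mul]
        congr 1
        group
      rw [Matrix.mulVec_mulVec, ← h8, ← Matrix.mulVec_mulVec, hc', Matrix.mulVec_smul]
    have h6 : m.mulVec (B.mulVec v) = (c - α₁) • B.mulVec v := by
      rw [hm, Matrix.sub_mulVec, h5, Matrix.smul_mulVec, Matrix.one_mulVec, sub_smul]
    have hBv : B.mulVec v ≠ 0 := by
      intro e0
      have h9 : (rbar g⁻¹ * B).mulVec v = 0 := by
        rw [← Matrix.mulVec_mulVec, e0, Matrix.mulVec_zero]
      rw [hB, ← map_mul, inv_mul_cancel, map_one, Matrix.one_mulVec] at h9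
      exact he h9
    have h7 : c - α₁ = 0 := by
      have h9 : m.mulVec (m.mulVec (B.mulVec v)) = 0 := by
        rw [Matrix.mulVec_mulVec, twc_sq_zero m hmdet hmtr, Matrix.zero_mulVec]
      rw [h6, Matrix.mulVec_smul, h6, smul_smul] at h9
      rcases smul_eq_zero.1 h9 with h | h
      · exact mul_self_eq_zero.1 h
      · exact absurd h hBv
    rw [h7, zero_smul] at h6
    exact twc_ker m hmtr e _ he h6


end Fermat.Agent.S56
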